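import Fermat.Agent.R59.Setup.TW
import Fermat.Agent.R59.Defs
import Fermat.Prelude.Def_GaloisRep_LocalConditions

/-!
# The residual representation of the lifting problem

`curveResidual W p hΔ k` is `E[p] ⊗ k`. It is absolutely irreducible, has cyclotomic determinant,
split characteristic polynomials once `k` contains the roots of unity of order `p² - 1`, stays
irreducible on subgroups of index two (`p = 3, 5`) and ramifies where `E[p]` does.
-/

set_option autoImplicit false

noncomputable section

namespace Fermat.Agent.R59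

open Module WeierstrassCurve Polynomial
open Fermat.Agent.Galois (Qbar GalQ)
open Fermat.Agent.CondLevel (Tors rhoTors cycChar)
open scoped WeierstrassCurve.Affine TensorProduct

/-- Base change of endomorphisms of a free module detects scalars. -/
theorem baseChange_eq_smul_one_iff {F K : Type*} [Field F] [Field K] [Algebra F K] {V : Type*}
    [AddCommGroup V] [Module F V] (f : Module.End F V) (c : F) :
    f.baseChange K = algebraMap F K c • (1 : Module.End K (K ⊗[F] V)) ↔ f = c • 1 := by
  have key : (c • (1 : Module.End F V)).baseChange K =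
      algebraMap F K c • (1 : Module.End K (K ⊗[F] V)) := by
    rw [LinearMap.baseChange_smul, LinearMap.baseChange_one, algebraMap_smul]
  refine ⟨fun h => LinearMap.ext fun x => ?_, fun h => h ▸ key⟩
  have h1 := LinearMap.congr_fun (h.trans key.symm) (1 ⊗ₜ x)
  rw [LinearMap.baseChange_tmul, LinearMap.baseChange_tmul] at h1
  exact Module.FaithfullyFlat.tensorProduct_mk_injective (B := K) V h1

variable (W : WeierstrassCurve ℤ) (hΔ : W.Δ ≠ 0) (p : ℕ) [Fact p.Prime]
  (k : Type) [Field k] [CharP k p]

/-- `E[p]` with coefficients in `k`. -/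
def curveResidual : ResidualGaloisRep k :=
  ((W.map (Int.castRingHom ℚ)).residualGaloisRepOf p
    (ECTorsion.natCard_torsionBy_qbar_of_int W hΔ (Fact.out : p.Prime).ne_zero)
    (CondLevel.rhoTors_finiteLevel W hΔ (Fact.out : p.Prime).ne_zero)).baseChangeAlong
      (ZMod.castHom (dvd_refl p) k)

theorem curveResidual_smul_one_iff (σ : GalQ) (c : ℤ) :
    (curveResidual W hΔ p k).ρ σ = (c : k) • 1 ↔ rhoTors W p σ = (c : ZMod p) • 1 := by
  let _ : Algebra (ZMod p) k := (ZMod.castHom (dvd_refl p) k).toAlgebra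
  rw [← map_intCast (algebraMap (ZMod p) k)]
  exact baseChange_eq_smul_one_iff _ _

theorem trace_curveResidual (σ : GalQ) :
    LinearMap.trace k (curveResidual W hΔ p k).V ((curveResidual W hΔ p k).ρ σ) =
      ZMod.castHom (dvd_refl p) k (LinearMap.trace (ZMod p) (Tors W p) (rhoTors W p σ)) := by
  let _ : Algebra (ZMod p) k := (ZMod.castHom (dvd_refl p) k).toAlgebra
  have := CondLevel.moduleFinite_tors W hΔ p
  exact LinearMap.trace_baseChange (rhoTors W p σ) k

theorem det_curveResidual (σ : GalQ) :
    LinearMap.det ((curveResidual W hΔ p k).ρ σ) =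
      ZMod.castHom (dvd_refl p) k (LinearMap.det (rhoTors W p σ)) := by
  let _ : Algebra (ZMod p) k := (ZMod.castHom (dvd_refl p) k).toAlgebra
  have := CondLevel.moduleFinite_tors W hΔ p
  exact LinearMap.det_baseChange (A := k) (rhoTors W p σ)

theorem charpoly_curveResidual_frobenius {ℓ : ℕ} (hℓ : ℓ.Prime) (hℓp : ℓ ≠ p)
    (hgood : W.IsGoodPrimeFor ℓ) {A : ValuationSubring Qbar} (hA : A.LiesOverPrime ℓ)
    {σ : GalQ} (hσ : A.IsFrobeniusAt σ ℓ) :
    LinearMap.charpoly ((curveResidual W hΔ p k).ρ σ) =
      X ^ 2 - C ((W.apOfModel ℓ : ℤ) : k) * X + C (ℓ : k) := by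
  obtain ⟨ht, hd⟩ := CondLevel.frobenius_trace_det W hΔ hℓ hℓp hgood hA hσ
  rw [CondLevel.charpoly_eq_of_finrank_two (curveResidual W hΔ p k).finrank_eq,
    trace_curveResidual W hΔ p k, det_curveResidual W hΔ p k, ht, hd, map_intCast, map_natCast]

theorem curveResidual_isAbsolutelyIrreducible (hp2 : p ≠ 2) (hirr : W.ModRepIsIrreducible p) :
    (curveResidual W hΔ p k).IsAbsolutelyIrreducible :=
  (CondLevel.residual_isAbsolutelyIrreducible W hΔ p hp2 hirr _ fun σ =>
    ⟨trace_curveResidual W hΔ p k σ, det_curveResidual W hΔ p k σ⟩).1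

theorem curveResidual_detIsCyclotomic :
    (GaloisRepAdic.ofResidualGaloisRep (curveResidual W hΔ p k)).DetIsCyclotomic p := by
  refine ⟨by rw [CharP.cast_eq_zero]; exact zero_mem _, fun n σ a h => ?_⟩
  rcases n with _ | n
  · rw [pow_zero, Nat.cast_one, Ideal.span_singleton_one]
    exact Submodule.mem_top
  have hz : σ (CondLevel.zetaN p) = CondLevel.zetaN p ^ a := h _ (by
    rw [pow_succ', pow_mul, (CondLevel.zetaN_spec p).pow_eq_one, one_pow])
  show LinearMap.det ((curveResidual W hΔ p k).ρ σ) - (a : k) ∈ _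
  rw [det_curveResidual W hΔ p k, CondLevel.det_rhoTors W hΔ p, CondLevel.cycChar_eq_natCast p hz,
    map_natCast, sub_self]
  exact zero_mem _

theorem curveResidual_isUnramifiedAt_iff (q : ℕ) :
    (curveResidual W hΔ p k).IsUnramifiedAt q ↔ ModUnramified W p q := by
  refine forall_congr' fun A => forall_congr' fun _ => forall_congr' fun σ => forall_congr' fun _ => ?_
  have h := curveResidual_smul_one_iff W hΔ p k σ 1
  simp only [Int.cast_one, one_smul] at h
  exact h

/-- With the roots of unity of order `p² - 1`, every characteristic polynomial splits. -/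
theorem curveResidual_split (hζ : ∃ ζ : k, IsPrimitiveRoot ζ (p ^ 2 - 1)) (σ : GalQ) :
    ∃ a b : k, LinearMap.charpoly ((curveResidual W hΔ p k).ρ σ) = (X - C a) * (X - C b) := by
  have hp : p.Prime := Fact.out
  obtain ⟨ζ, hζ⟩ := hζ
  have hn : 0 < p ^ 2 - 1 := by
    have h4 : 2 ^ 2 ≤ p ^ 2 := Nat.pow_le_pow_left hp.two_le 2
    omega
  have := CondLevel.moduleFinite_tors W hΔ p
  obtain ⟨t, ht⟩ := ZMod.intCast_surjective (LinearMap.trace (ZMod p) (Tors W p) (rhoTors W p σ))
  obtain ⟨d, hd⟩ := ZMod.intCast_surjective (LinearMap.det (rhoTors W p σ))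
  have hd0 : ((d : ℤ) : k) ≠ 0 := by
    rw [← map_intCast (ZMod.castHom (dvd_refl p) k), _root_.map_ne_zero, hd, CondLevel.det_rhoTors W hΔ p]
    exact cycChar_ne_zero p σ
  let K := AlgebraicClosure k
  have : CharP K p := charP_of_injective_algebraMap (algebraMap k K).injective p
  obtain ⟨x, hx⟩ := IsAlgClosed.exists_root
    (X ^ 2 - C (((t : ℤ) : K)) * X + C (((d : ℤ) : K)))
    (by
      have hdeg : (X ^ 2 - C (((t : ℤ) : K)) * X + C (((d : ℤ) : K))).degree = 2 := by
        compute_degree!
      rw [hdeg]; decide)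
  simp only [IsRoot.def, eval_add, eval_sub, eval_pow, eval_mul, eval_X, eval_C] at hx
  have hprod : x * ((t : K) - x) = (d : K) := by linear_combination -hx
  have hdK : ((d : ℤ) : K) ≠ 0 := by
    rw [← map_intCast (algebraMap k K)]
    exact (_root_.map_ne_zero _).mpr hd0
  obtain ⟨hx0, hy0⟩ := mul_ne_zero_iff.mp (hprod ▸ hdK)
  have hxpow := pow_sq_sub_one_eq_one (p := p) (t := t) (d := d) (by ring) hprod hx0 hy0
  have : NeZero (p ^ 2 - 1) := ⟨hn.ne'⟩
  obtain ⟨i, -, hi⟩ := (hζ.map_of_injective (algebraMap k K).injective).eq_pow_of_pow_eq_one hxpow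
  refine ⟨ζ ^ i, (t : k) - ζ ^ i, Polynomial.map_injective (algebraMap k K)
    (algebraMap k K).injective ?_⟩
  rw [CondLevel.charpoly_eq_of_finrank_two (curveResidual W hΔ p k).finrank_eq,
    trace_curveResidual W hΔ p k, det_curveResidual W hΔ p k, ← ht, ← hd,
    map_intCast (ZMod.castHom (dvd_refl p) k) t, map_intCast (ZMod.castHom (dvd_refl p) k) d]
  simp only [Polynomial.map_add, Polynomial.map_sub, Polynomial.map_mul, Polynomial.map_pow,
    Polynomial.map_X, Polynomial.map_C]
  simp only [map_intCast (algebraMap k K), map_sub (algebraMap k K), map_pow (algebraMap k K), hi]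
  rw [← hprod]
  simp only [map_sub C, map_mul C]
  ring

/-- `E[p] ⊗ k` stays absolutely irreducible on subgroups of index two. -/
theorem curveResidual_tw (hp : p = 3 ∨ p = 5) (hW : W.IsSemistableModel)
    (hirr : W.ModRepIsIrreducible p) (K : Type) [Field K] [Algebra k K] (G : Subgroup GalQ)
    (hG : G.index = 2) (V : Submodule K ((curveResidual W hΔ p k).baseChange K).V)
    (hV : ∀ σ ∈ G, ∀ x ∈ V, ((curveResidual W hΔ p k).baseChange K).ρ σ x ∈ V) :
    V = ⊥ ∨ V = ⊤ := by
  have : CharP K p := charP_of_injective_algebraMap (algebraMap k K).injective p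
  have hcomp : (algebraMap k K).comp (ZMod.castHom (dvd_refl p) k) =
      ZMod.castHom (dvd_refl p) K := Subsingleton.elim _ _
  refine eq_bot_or_eq_top_of_index_two W hΔ ((curveResidual W hΔ p k).baseChange K).ρ hp hW hirr
    ((curveResidual W hΔ p k).baseChange K).finrank_eq (fun σ c => ?_) (fun σ => ?_) (fun σ => ?_)
    G hG V hV
  · rw [← curveResidual_smul_one_iff W hΔ p k, ← map_intCast (algebraMap k K)]
    exact baseChange_eq_smul_one_iff _ _
  · rw [← hcomp, RingHom.comp_apply, ← trace_curveResidual W hΔ p k]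
    exact LinearMap.trace_baseChange _ _
  · rw [← hcomp, RingHom.comp_apply, ← det_curveResidual W hΔ p k]
    exact LinearMap.det_baseChange (A := K) _

end Fermat.Agent.R59
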