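import Fermat.Agent.R59.Setup.Inputs
import Fermat.Agent.R59.TopRep.Strict
import Fermat.Agent.R59.TopRep.NotFlat
import Fermat.Agent.R59.DefRings

/-!
# Strictness at `p` of the base point of a strict problem

An ordinary base point with cyclotomic determinant is strict ordinary or residually flat at `p`;
`E[p]` of a strict problem is not flat at `p`.
-/

set_option autoImplicit false

noncomputable section

open IsLocalRing

namespace Fermat.Agent.R59

/-- Strictness of the base point, from level lowering at `p` for finite flat `E[p]`. -/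
theorem stmtStrictPoint_of (h : TopRep.StmtFlatLower) : StmtStrictPoint := by
  intro W p hcore hΔ _ 𝒪 _ _ _ _ _ _ _ _ χ ρ hbase hord
  refine (TopRep.isStrictOrdinaryAt_or_residual_isFlatAt hbase.det hord).resolve_right
    fun hflat => TopRep.not_hasFlatModelAt_tors_of_strict h hcore
      (TopRep.hasFlatModelAt_tors_of_curveResidual hΔ (F := ResidueField 𝒪) ?_)
  obtain ⟨e⟩ := hbase.residual
  obtain ⟨c⟩ := baseChangeAlong_of_eq_id (ResidueField.map (algebraMap 𝒪 𝒪))
    (ResidueField.map_id (R := 𝒪)) (curveResidual W hΔ p (ResidueField 𝒪))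
  exact Tangent.isFlatAt_of_isEquiv (ofResidualGaloisRep_isEquiv ⟨e.trans c⟩) hflat

end Fermat.Agent.R59
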