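import Fermat.Agent.Eigen.Unconditional
import Fermat.Agent.GAL.PointExtend
import Mathlib.RingTheory.RootsOfUnity.Complex
import Mathlib.NumberTheory.Padics.RingHoms
import Mathlib.RingTheory.Polynomial.Cyclotomic.Roots

/-!
# The coefficient ring of the lifting problem

An eigenform and a prime `𝔪` of `ℤ̄` over `p` give a complete discrete valuation ring with a point
of the Hecke algebra congruent to the eigenform, whose residue field contains a primitive root of
unity of a given order prime to `p`.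
-/

set_option autoImplicit false

noncomputable section

open CongruenceSubgroup ModularFormClass IsLocalRing
open scoped IsMulCommutative

namespace Fermat.Agent.R59

/-- The coefficient ring attached to an eigenform, with a root of unity of order `m` prime to
`p` in the residue field. -/
theorem exists_coeffRing {N : ℕ} [NeZero N] {f : CuspForm (Gamma0 N) 2}
    (hf : f.IsNormalizedEigenform) (S : Set ℕ) {p : ℕ} (hp : p.Prime) {m : ℕ} (hm : ¬ p ∣ m)
    {𝔪 : Ideal (integralClosure ℤ ℂ)} (h𝔪 : 𝔪.IsMaximal)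
    (hp𝔪 : (p : integralClosure ℤ ℂ) ∈ 𝔪) :
    ∃ (𝒪 : Type) (_ : CommRing 𝒪) (_ : IsDomain 𝒪) (_ : IsDiscreteValuationRing 𝒪)
      (_ : IsAdicComplete (maximalIdeal 𝒪) 𝒪) (_ : Finite (ResidueField 𝒪)) (_ : CharZero 𝒪)
      (χ : ↥(CuspForm.heckeAlgebra N 2 S) →+* 𝒪),
      (p : 𝒪) ∈ maximalIdeal 𝒪 ∧
      (∃ ζ : ResidueField 𝒪, IsPrimitiveRoot ζ m) ∧
      ∀ (ℓ : ℕ) (hℓ : ℓ.Prime) (hℓN : ¬ ℓ ∣ N) (hℓS : ℓ ∉ S) (a : integralClosure ℤ ℂ) (n : ℤ),
        (a : ℂ) = qCoeff f ℓ → a - (n : integralClosure ℤ ℂ) ∈ 𝔪 →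
          residue 𝒪 (χ (CuspForm.heckeAlgebra.T hℓ hℓN hℓS)) = n := by
  classical
  have := MF.IntStruct.moduleFinite_heckeAlgebra N 2 ∅
  have := MF.IntStruct.moduleFinite_heckeAlgebra N 2 S
  have hm0 : m ≠ 0 := fun h => hm (h ▸ dvd_zero p)
  obtain ⟨s, hs⟩ := (inferInstance : Module.Finite ℤ ↥(CuspForm.heckeAlgebra N 2 S)).fg_top
  obtain ⟨ζ₀, hζ₀⟩ : ∃ ζ : ℂ, IsPrimitiveRoot ζ m := ⟨_, Complex.isPrimitiveRoot_exp m hm0⟩
  let ζ : integralClosure ℤ ℂ := ⟨ζ₀, hζ₀.isIntegral (Nat.pos_of_ne_zero hm0)⟩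
  have hζ : IsPrimitiveRoot ζ m :=
    IsPrimitiveRoot.of_map_of_injective
      (f := (integralClosure ℤ ℂ).val) hζ₀ Subtype.val_injective
  let G : Set (integralClosure ℤ ℂ) := insert ζ (Eigen.eigenCharInt hf S '' (s : Set _))
  let R := Algebra.adjoin ℤ G
  have : Module.Finite ℤ R := Module.Finite.iff_fg.mpr
    (fg_adjoin_of_finite ((s.finite_toSet.image _).insert _)
      fun x _ => (isIntegral_algHom_iff (integralClosure ℤ ℂ).val Subtype.val_injective).mp x.2)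
  have hmem : ∀ t, Eigen.eigenCharInt hf S t ∈ R := fun t => by
    have htop : t ∈ Submodule.span ℤ (s : Set ↥(CuspForm.heckeAlgebra N 2 S)) :=
      hs ▸ Submodule.mem_top
    induction htop using Submodule.span_induction with
    | mem x hx => exact Algebra.subset_adjoin (Set.mem_insert_of_mem _ (Set.mem_image_of_mem _ hx))
    | zero => rw [map_zero]; exact zero_mem _
    | add x y _ _ h h' => rw [map_add]; exact add_mem h h'
    | smul r x _ h => rw [map_zsmul]; exact zsmul_mem h r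
  let k := integralClosure ℤ ℂ ⧸ 𝔪
  let _ : Field k := Ideal.Quotient.field 𝔪
  have : CharP k p := Eigen.charP_quotient_maximal hp 𝔪 hp𝔪
  let φ : integralClosure ℤ ℂ →+* k := Ideal.Quotient.mk 𝔪
  obtain ⟨𝒪, i1, i2, i3, i4, i5, i6, χ', ι, hp𝒪, -, hι⟩ :=
    Eigen.exists_completion_point R.val.toRingHom hp φ
  refine ⟨𝒪, i1, i2, i3, i4, i5, i6,
    χ'.comp ((Eigen.eigenCharInt hf S).codRestrict R hmem), hp𝒪, ?_, ?_⟩
  · refine ⟨residue 𝒪 (χ' ⟨ζ, Algebra.subset_adjoin (Set.mem_insert _ _)⟩), ?_⟩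
    refine IsPrimitiveRoot.of_map_of_injective (f := ι) ?_ ι.injective
    rw [hι]
    have : NeZero (m : k) := ⟨fun h => hm ((CharP.cast_eq_zero_iff k p m).mp h)⟩
    exact Polynomial.isRoot_cyclotomic_iff.mp
      (by simpa [Polynomial.map_cyclotomic] using
        (hζ.isRoot_cyclotomic (Nat.pos_of_ne_zero hm0)).map (f := φ))
  · intro ℓ hℓ hℓN hℓS a n ha hcong
    apply ι.injective
    rw [RingHom.comp_apply, hι, map_intCast]
    show φ (Eigen.eigenCharInt hf S (CuspForm.heckeAlgebra.T hℓ hℓN hℓS)) = _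
    rw [Eigen.eigenCharInt_T, show Eigen.intCoeff hf ℓ = a from Subtype.ext ha.symm,
      ← map_intCast φ]
    exact Ideal.Quotient.eq.mpr hcong

/-- A complete local domain over `p` receives `ℤ_[p]` by a local homomorphism. -/
theorem exists_padicInt_localHom {𝒪 : Type} [CommRing 𝒪] [IsLocalRing 𝒪]
    [IsAdicComplete (maximalIdeal 𝒪) 𝒪] {p : ℕ} [Fact p.Prime]
    (hp : (p : 𝒪) ∈ maximalIdeal 𝒪) : ∃ φ : ℤ_[p] →+* 𝒪, IsLocalHom φ := by
  obtain ⟨φ⟩ := GAL.exists_padicInt_hom (I := maximalIdeal 𝒪) hp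
  refine ⟨φ, ⟨fun x hx => ?_⟩⟩
  by_contra hn
  have hx' : x ∈ maximalIdeal ℤ_[p] := hn
  rw [PadicInt.maximalIdeal_eq_span_p, Ideal.mem_span_singleton] at hx'
  obtain ⟨y, rfl⟩ := hx'
  rw [map_mul, map_natCast, IsUnit.mul_iff] at hx
  exact hp hx.1

end Fermat.Agent.R59
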