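import Fermat.Agent.R59.Setup.Residual
import Fermat.Agent.R59.Interfaces
import Fermat.Prelude.Def_CuspForm_HeckeGaloisRepDatum
import Fermat.Prelude.Def_GaloisRep_Flat
import Fermat.Prelude.Def_GaloisRep_StrictOrdinary
import Fermat.Prelude.Def_ModularCurve_HeckeModule

/-!
# Inputs of the base point

* `StmtSpec`, `Stmt32`, `Stmt33`, `Stmt34`: the types of S37, S32, S33 and S34.
* `StmtStrictPoint`: at level `minLevel * p`, for the strict problem, a residually correct attached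
  representation which is ordinary at `p` is strict ordinary.
* `StmtUnitRootPoint`: at level prime to `p`, for the ordinary problem, an attached representation
  is ordinary with the unit root of `X² - a_p X + p` as Frobenius on the unramified quotient.
-/

set_option autoImplicit false

noncomputable section

open IsLocalRing Polynomial

namespace Fermat.Agent.R59

local notation "Γℚ" => (AlgebraicClosure ℚ ≃ₐ[ℚ] AlgebraicClosure ℚ)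

open ModularCurve in
/-- The type of S37. -/
def StmtSpec : Prop :=
  ∀ (N p : ℕ) [NeZero N], HeckeOperatorsCommuteBar N →
    letI := heckeModuleBar N
    ∀ (_ : SMulCommClass (AlgebraicClosure ℚ ≃ₐ[ℚ] AlgebraicClosure ℚ) HeckeAlg (JZero N)),
      SpecializationExists (K := ℚ) (L := AlgebraicClosure ℚ) N p (JZero N)

/-- The type of S32. -/
def Stmt32 : Prop :=
  ∀ {p : ℕ} {N : ℕ} [NeZero N] {S : Finset ℕ}
    {𝒪 : Type} [CommRing 𝒪] [IsDomain 𝒪] [IsDiscreteValuationRing 𝒪]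
    [IsAdicComplete (maximalIdeal 𝒪) 𝒪]
    {θ : CuspForm.heckeAlgebra N 2 (↑S : Set ℕ) →+* ResidueField 𝒪}
    {T : Type} [CommRing T] [IsLocalRing T] [IsNoetherianRing T]
    [IsAdicComplete (maximalIdeal T) T] [Algebra 𝒪 T] [IsLocalHom (algebraMap 𝒪 T)]
    [Module.Finite 𝒪 T] [Module.Free 𝒪 T]
    [Finite (ResidueField 𝒪)] [CharZero 𝒪]
    (_ : p.Prime) (_ : p ≠ 2) (_ : (p : 𝒪) ∈ maximalIdeal 𝒪) (_ : ¬ p ∣ N)
    (_ : p ∈ S) (_ : ∀ q : ℕ, q.Prime → q ∣ N → q ∈ S)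
    (H : CuspForm.HeckeGaloisRepDatum N (↑S : Set ℕ) 𝒪 θ T),
    H.ρ.IsFlatAt p

/-- The type of S33. -/
def Stmt33 : Prop :=
  ∀ {p : ℕ} {N : ℕ} [NeZero N] {S : Finset ℕ}
    {𝒪 : Type} [CommRing 𝒪] [IsDomain 𝒪] [IsDiscreteValuationRing 𝒪]
    [IsAdicComplete (maximalIdeal 𝒪) 𝒪]
    {θ : CuspForm.heckeAlgebra N 2 (↑S : Set ℕ) →+* ResidueField 𝒪}
    {T : Type} [CommRing T] [IsLocalRing T] [IsNoetherianRing T]
    [IsAdicComplete (maximalIdeal T) T] [Algebra 𝒪 T] [IsLocalHom (algebraMap 𝒪 T)]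
    [Module.Finite 𝒪 T] [Module.Free 𝒪 T]
    [Finite (ResidueField 𝒪)] [CharZero 𝒪]
    (_ : p.Prime) (_ : p ≠ 2) (_ : (p : 𝒪) ∈ maximalIdeal 𝒪) (_ : p ∣ N ∧ ¬ p ^ 2 ∣ N)
    (_ : ∀ q : ℕ, q.Prime → q ∣ N → q ∈ S)
    (H : CuspForm.HeckeGaloisRepDatum N (↑S : Set ℕ) 𝒪 θ T)
    (_ : (GaloisRepAdic.ofResidualGaloisRep H.ρ.residual).IsOrdinaryAt p),
    H.ρ.IsOrdinaryAt p

/-- The type of S34. -/
def Stmt34 : Prop :=
  ∀ {𝒪 : Type} [CommRing 𝒪] [IsDomain 𝒪] [IsDiscreteValuationRing 𝒪]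
    [IsAdicComplete (maximalIdeal 𝒪) 𝒪] [Finite (ResidueField 𝒪)] [CharZero 𝒪]
    {p : ℕ} (_ : p.Prime) (_ : (p : 𝒪) ∈ maximalIdeal 𝒪)
    {N : ℕ} [NeZero N] {S : Finset ℕ} (_ : p ∈ S) (_ : ∀ q : ℕ, q.Prime → q ∣ N → q ∈ S)
    {θ : CuspForm.heckeAlgebra N 2 (↑S : Set ℕ) →+* ResidueField 𝒪}
    {T : Type} [CommRing T] [IsLocalRing T] [IsNoetherianRing T]
    [IsAdicComplete (maximalIdeal T) T] [Algebra 𝒪 T] [IsLocalHom (algebraMap 𝒪 T)]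
    [Module.Finite 𝒪 T] [Module.Free 𝒪 T]
    (H : CuspForm.HeckeGaloisRepDatum N (↑S : Set ℕ) 𝒪 θ T)
    (q : ℕ) (_ : q.Prime) (_ : q ≠ p) (_ : q ∣ N) (_ : ¬ q ^ 2 ∣ N),
    H.ρ.IsUnipotentOnInertiaAt q

/-- A representation over `𝒪` lifting `E[p]` with Frobenius given outside `insert p S` by a point
of the Hecke algebra of level `N` away from `S`. -/
structure IsBasePoint {𝒪 : Type} [CommRing 𝒪] [IsDomain 𝒪] [IsDiscreteValuationRing 𝒪]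
    (W : WeierstrassCurve ℤ) (hΔ : W.Δ ≠ 0) (p : ℕ) [Fact p.Prime] [CharP (ResidueField 𝒪) p]
    (N : ℕ) [NeZero N]
    (χ : CuspForm.heckeAlgebra N 2 (↑N.primeFactors : Set ℕ) →+* 𝒪) (ρ : GaloisRepAdic 𝒪) :
    Prop where
  p_mem : (p : 𝒪) ∈ maximalIdeal 𝒪
  residual : ρ.residual.IsEquiv
    ((curveResidual W hΔ p (ResidueField 𝒪)).baseChangeAlong
      (ResidueField.map (algebraMap 𝒪 𝒪)))
  det : ρ.DetIsCyclotomic p
  charpoly : ∀ (ℓ : ℕ) (hℓ : ℓ.Prime) (hℓN : ¬ ℓ ∣ N)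
    (hℓS : ℓ ∉ (↑N.primeFactors : Set ℕ)), ℓ ≠ p →
    ∀ A : ValuationSubring (AlgebraicClosure ℚ), A.LiesOverPrime ℓ →
      ∀ σ : Γℚ, A.IsFrobeniusAt σ ℓ →
        LinearMap.charpoly (ρ.ρ σ) =
          X ^ 2 - C (χ (CuspForm.heckeAlgebra.T hℓ hℓN hℓS)) * X + C ((ℓ : 𝒪))

/-- Strictness at `p` for the strict problem. -/
def StmtStrictPoint : Prop :=
  ∀ (W : WeierstrassCurve ℤ) (p : ℕ), CoreHyp W p .strict → ∀ (hΔ : W.Δ ≠ 0) [Fact p.Prime]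
    (𝒪 : Type) [CommRing 𝒪] [IsDomain 𝒪] [IsDiscreteValuationRing 𝒪]
    [IsAdicComplete (maximalIdeal 𝒪) 𝒪] [Finite (ResidueField 𝒪)] [CharZero 𝒪]
    [CharP (ResidueField 𝒪) p] [NeZero (baseLevel W p .strict)]
    (χ : CuspForm.heckeAlgebra (baseLevel W p .strict) 2
      (↑(baseLevel W p .strict).primeFactors : Set ℕ) →+* 𝒪) (ρ : GaloisRepAdic 𝒪),
    IsBasePoint W hΔ p (baseLevel W p .strict) χ ρ → ρ.IsOrdinaryAt p → ρ.IsStrictOrdinaryAt p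

/-- The unit root at `p` for the ordinary problem. -/
def StmtUnitRootPoint : Prop :=
  ∀ (W : WeierstrassCurve ℤ) (p : ℕ), CoreHyp W p .ord → ∀ (hΔ : W.Δ ≠ 0) [Fact p.Prime]
    (𝒪 : Type) [CommRing 𝒪] [IsDomain 𝒪] [IsDiscreteValuationRing 𝒪]
    [IsAdicComplete (maximalIdeal 𝒪) 𝒪] [Finite (ResidueField 𝒪)] [CharZero 𝒪]
    [CharP (ResidueField 𝒪) p] [NeZero (baseLevel W p .ord)]
    (χ : CuspForm.heckeAlgebra (baseLevel W p .ord) 2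
      (↑(baseLevel W p .ord).primeFactors : Set ℕ) →+* 𝒪) (ρ : GaloisRepAdic 𝒪),
    IsBasePoint W hΔ p (baseLevel W p .ord) χ ρ → ρ.IsFlatAt p →
    ∀ (hpN : ¬ p ∣ baseLevel W p .ord)
      (hpS : p ∉ (↑(baseLevel W p .ord).primeFactors : Set ℕ)),
      ∃ α : 𝒪, IsUnit α ∧
        α ^ 2 + (p : 𝒪) = χ (CuspForm.heckeAlgebra.T (Fact.out : p.Prime) hpN hpS) * α ∧
        HasUnitRootFrob ρ p α

end Fermat.Agent.R59
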