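import Fermat.Agent.R59.Setup.Proof
import Fermat.Agent.R59.Setup.StrictPoint
import Fermat.Agent.R59.UnitRoot.Main

/-!
# The data of a lifting problem, from the Galois inputs and level lowering at `p`
-/

set_option autoImplicit false

noncomputable section

namespace Fermat.Agent.R59

/-- `StmtSetup` from S37, S32, S33, S34 and level lowering at `p` for finite flat `E[p]`. -/
theorem stmtSetup_of_inputs (hS37 : StmtSpec) (h32 : Stmt32) (h33 : Stmt33) (h34 : Stmt34)
    (h : TopRep.StmtFlatLower) : StmtSetup :=
  stmtSetup_of hS37 h32 h33 h34 (stmtStrictPoint_of h) (stmtUnitRootPoint_of hS37)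

end Fermat.Agent.R59
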