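import Fermat.Agent.R59.Setup.Inertia
import Mathlib.GroupTheory.Sylow

/-!
# `E[p]` stays absolutely irreducible on subgroups of index two (`p` odd)

Otherwise the image is monomial, so `E[p]` is unramified outside `p` and the subgroup is the one of
`ℚ(√±p)`.  For `p = 3` the image is then a cyclic `2`-group, for `p ≥ 5` inertia at `p` contradicts
the monomial shape.
-/

set_option autoImplicit false
set_option maxHeartbeats 1000000

noncomputable section

namespace Fermat.Agent.R59

open Module WeierstrassCurve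
open Fermat.Agent.Galois (Qbar GalQ InertiaLE)
open Fermat.Agent.CondLevel (Tors rhoTors cycChar)
open scoped WeierstrassCurve.Affine

/-- Powers of a unipotent element. -/
theorem one_add_pow_of_mul_self {R : Type*} [Ring R] {x : R} (hx : x * x = 0) (n : ℕ) :
    (1 + x) ^ n = 1 + n • x := by
  induction n with
  | zero => simp
  | succ n ih =>
    rw [pow_succ, ih, add_mul, one_mul, smul_mul_assoc, mul_add, mul_one, hx, add_zero,
      succ_nsmul]
    abel

/-- For a prime `p ≥ 5` some non-square residue is not `-1`. -/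
theorem exists_not_isSquare_add_one_ne_zero (p : ℕ) [Fact p.Prime] (hp2 : p ≠ 2) (hp3 : p ≠ 3) :
    ∃ a : ZMod p, ¬ IsSquare a ∧ a + 1 ≠ 0 := by
  obtain ⟨n, hn⟩ := FiniteField.exists_nonsquare (F := ZMod p) (by rwa [ZMod.ringChar_zmod_n])
  by_cases h1 : IsSquare (-1 : ZMod p)
  · exact ⟨n, hn, fun h => hn ((eq_neg_of_add_eq_zero_left h).symm ▸ h1)⟩
  · refine ⟨-1 * 2 ^ 2, fun h => h1 ?_, fun h => hp3 ?_⟩
    · have h2 : (2 : ZMod p) ≠ 0 := Ring.two_ne_zero (by rwa [ZMod.ringChar_zmod_n])
      have hd := h.div (IsSquare.sq (2 : ZMod p))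
      rwa [mul_div_cancel_right₀ _ (pow_ne_zero 2 h2)] at hd
    · have h3 : ((3 : ℕ) : ZMod p) = 0 := by linear_combination -h
      exact (Nat.prime_dvd_prime_iff_eq Fact.out Nat.prime_three).mp
        ((ZMod.natCast_eq_zero_iff 3 p).mp h3)

variable (W : WeierstrassCurve ℤ) (hΔ : W.Δ ≠ 0) {p : ℕ} [Fact p.Prime]

include hΔ in
/-- `E[p]` has no commutative image. -/
theorem not_commute_of_irreducible (hp2 : p ≠ 2) (hirr : W.ModRepIsIrreducible p)
    (h : ∀ σ τ, rhoTors W p σ * rhoTors W p τ = rhoTors W p τ * rhoTors W p σ) : False := by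
  have := CondLevel.moduleFinite_tors W hΔ p
  set c := complexConjugation
  have h2 : (2 : ZMod p) ≠ 0 := Ring.two_ne_zero (by rw [ZMod.ringChar_zmod_n]; exact hp2)
  obtain ⟨b, hb0, hb1⟩ := CondLevel.exists_basis_involution h2 (CondLevel.finrank_tors W hΔ p)
    (f := rhoTors W p c) (by rw [← map_mul, complexConjugation_mul_self, map_one])
    (CondLevel.det_rhoTors_involution W hΔ p hp2 complexConjugation_mul_self
      CondLevel.complexConjugation_ne_one)
  have hst : ∀ σ : GalQ, ∀ x ∈ (ZMod p) ∙ b 0, rhoTors W p σ x ∈ (ZMod p) ∙ b 0 := by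
    intro σ x hx
    obtain ⟨a, rfl⟩ := Submodule.mem_span_singleton.mp hx
    rw [map_smul]
    refine Submodule.smul_mem _ a ?_
    set y := rhoTors W p σ (b 0) with hy
    have hfix : rhoTors W p c y = y := by
      rw [hy, ← Module.End.mul_apply, h, Module.End.mul_apply, hb0]
    have h1 : b.repr y 1 = 0 := by
      have h0 := congrArg (fun z => b.repr (rhoTors W p c z) 1) (b.sum_repr y)
      simp only [Fin.sum_univ_two, map_add, map_smul, hb0, hb1, hfix] at h0
      simp at h0
      exact (mul_left_cancel₀ h2 (by linear_combination -h0 :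
        (2 : ZMod p) * b.repr y 1 = 2 * 0))
    rw [← b.sum_repr y, Fin.sum_univ_two, h1, zero_smul, add_zero]
    exact Submodule.smul_mem _ _ (Submodule.mem_span_singleton_self _)
  rcases hirr.2 _ fun σ x hx => hst σ x hx with h0 | h0
  · exact b.ne_zero 0 (Submodule.span_singleton_eq_bot.mp h0)
  · have h1 := finrank_span_singleton (K := ZMod p) (b.ne_zero 0)
    rw [h0, finrank_top, CondLevel.finrank_tors W hΔ p] at h1
    exact absurd h1 (by norm_num)

variable {K : Type} [Field K] [CharP K p] {V : Type} [AddCommGroup V] [Module K V]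
  (r : GalQ →* Module.End K V)

include hΔ in
/-- `E[p]` has no proper subspace stable under a subgroup of index two, for odd `p`. -/
theorem eq_bot_or_eq_top_of_index_two_odd (hp2 : p ≠ 2) (hW : W.IsSemistableModel)
    (hirr : W.ModRepIsIrreducible p) (hV : finrank K V = 2)
    (hmap : ∀ σ (c : ℤ), r σ = (c : K) • 1 ↔ rhoTors W p σ = (c : ZMod p) • 1)
    (htr : ∀ σ, LinearMap.trace K V (r σ) =
      ZMod.castHom (dvd_refl p) K (LinearMap.trace (ZMod p) (Tors W p) (rhoTors W p σ)))
    (hdet : ∀ σ, LinearMap.det (r σ) =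
      ZMod.castHom (dvd_refl p) K (LinearMap.det (rhoTors W p σ)))
    (G : Subgroup GalQ) (hG : G.index = 2) (U : Submodule K V)
    (hU : ∀ g ∈ G, ∀ x ∈ U, r g x ∈ U) : U = ⊥ ∨ U = ⊤ := by
  have hpr : p.Prime := Fact.out
  have := CondLevel.moduleFinite_tors W hΔ p
  have : Module.Finite K V := Module.finite_of_finrank_eq_succ hV
  have hK2 : (2 : K) ≠ 0 := Ring.two_ne_zero (by rw [ringChar.eq K p]; exact hp2)
  by_contra hcon
  push Not at hcon
  have hU1 : finrank K U = 1 := by
    have hlt := Submodule.finrank_lt (Ne.lt_top hcon.2).ne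
    have hpos : finrank K U ≠ 0 := fun h0 => hcon.1 (Submodule.finrank_eq_zero.mp h0)
    rw [hV] at hlt
    omega
  obtain ⟨w, hw0, hwspan⟩ := finrank_eq_one_iff'.mp hU1
  have hstab : ∀ g ∈ G, ∃ c : K, r g w = c • (w : V) := fun g hg => by
    obtain ⟨c, hc⟩ := hwspan ⟨_, hU g hg w w.2⟩
    exact ⟨c, (congrArg Subtype.val hc).symm⟩
  have hnoline : ∀ u : V, u ≠ 0 → ∃ g, ∀ c : K, r g u ≠ c • u := by
    intro u hu
    by_contra h
    push Not at h
    have hst : ∀ σ, ∀ x ∈ K ∙ u, r σ x ∈ K ∙ u := fun σ x hx => by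
      obtain ⟨a, rfl⟩ := Submodule.mem_span_singleton.mp hx
      obtain ⟨c, hc⟩ := h σ
      rw [map_smul, hc]
      exact Submodule.smul_mem _ _ (Submodule.smul_mem _ _ (Submodule.mem_span_singleton_self u))
    rcases CondLevel.irreducible_of_trace_det hK2 (ZMod.castHom (dvd_refl p) K)
      (CondLevel.finrank_tors W hΔ p) (rhoTors W p) (fun N hN => hirr.2 N fun σ x hx => hN σ x hx)
      complexConjugation complexConjugation_mul_self
      (CondLevel.det_rhoTors_involution W hΔ p hp2 complexConjugation_mul_self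
        CondLevel.complexConjugation_ne_one) hV r htr hdet _ hst with h0 | h0
    · exact hu (Submodule.span_singleton_eq_bot.mp h0)
    · have h1 := finrank_span_singleton (K := K) hu
      rw [h0, finrank_top, hV] at h1
      exact absurd h1 (by norm_num)
  obtain ⟨M, hMtr, hMdet, hMeq, hMsc, hd, ha⟩ :=
    exists_monomial_basis hV r G hG w (by simpa using hw0) hstab hnoline
  -- transfer between the three representations
  have hM1 : ∀ g, M g = 1 ↔ rhoTors W p g = 1 := fun g => by
    rw [← map_one M, hMeq, map_one r]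
    simpa using hmap g 1
  have hMrho : ∀ g g', M g = M g' ↔ rhoTors W p g = rhoTors W p g' := fun g g' => by
    constructor <;> intro h
    · have h1 : rhoTors W p (g⁻¹ * g') = 1 :=
        (hM1 _).mp (by rw [map_mul, ← h, ← map_mul, inv_mul_cancel, map_one])
      calc rhoTors W p g = rhoTors W p g * rhoTors W p (g⁻¹ * g') := by rw [h1, mul_one]
        _ = rhoTors W p g' := by rw [← map_mul, mul_inv_cancel_left]
    · have h1 : M (g⁻¹ * g') = 1 :=
        (hM1 _).mpr (by rw [map_mul, ← h, ← map_mul, inv_mul_cancel, map_one])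
      calc M g = M g * M (g⁻¹ * g') := by rw [h1, mul_one]
        _ = M g' := by rw [← map_mul, mul_inv_cancel_left]
  have hint : ∀ g, ∃ t d : ℤ, (M g).trace = t ∧ (M g).det = d := fun g => by
    obtain ⟨t, ht⟩ := ZMod.intCast_surjective
      (LinearMap.trace (ZMod p) (Tors W p) (rhoTors W p g))
    obtain ⟨d, hd'⟩ := ZMod.intCast_surjective (LinearMap.det (rhoTors W p g))
    exact ⟨t, d, by rw [← hMtr, htr, ← ht, map_intCast],
      by rw [← hMdet, hdet, ← hd', map_intCast]⟩
  -- unramified outside `p`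
  have hur : ∀ q : ℕ, q.Prime → q ≠ p → ∀ A : ValuationSubring Qbar, A.LiesOverPrime q →
      ∀ σ ∈ A.inertiaSubgroupIn ℚ, M σ = 1 := by
    intro q hq hqp A hA σ hσ
    have hu := CondLevel.inertia_unipotent W hΔ hq (hW q hq)
      (fun h => hqp ((Nat.prime_dvd_prime_iff_eq hq hpr).mp h)) hA hσ
    have hN : (rhoTors W p σ - 1) * (rhoTors W p σ - 1) = 0 := by
      rw [sub_mul, mul_sub, one_mul, mul_one, ← sq, hu]
      module
    refine monomial_eq_one_of_pow (p := p) M hint hd hG hp2 σ 1 ?_
    rw [pow_one, ← map_pow, hM1, map_pow, ← add_sub_cancel 1 (rhoTors W p σ),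
      one_add_pow_of_mul_self hN, ← Nat.cast_smul_eq_nsmul (ZMod p), ZMod.natCast_self, zero_smul,
      add_zero]
  have hmem : ∀ g, M g = 1 → g ∈ G := fun g hg => by
    by_contra h
    have h0 := monomial_trace_eq_zero M ha h
    rw [hg, Matrix.trace_one, Fintype.card_fin] at h0
    exact hK2 (by exact_mod_cast h0)
  obtain ⟨L, hL, hLρ⟩ := CondLevel.rhoTors_finiteLevel W hΔ hpr.ne_zero
  have hquad : ∀ G' : Subgroup GalQ, G'.index = 2 → (∀ g, M g = 1 → g ∈ G') →
      ∀ σ, σ ∈ G' ↔ eulerChar p σ = 1 := fun G' hG' hker =>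
    mem_iff_eulerChar_eq_one p hp2 G' hG'
      ⟨L, hL, fun σ hσ => hker σ ((hM1 σ).mpr (hLρ σ fun x hx =>
        (IntermediateField.mem_fixingSubgroup_iff _ _).mp hσ x hx))⟩
      fun q hq hqp A hA σ hσ => hker σ (hur q hq hqp A hA σ hσ)
  have hGη := hquad G hG hmem
  by_cases hp3 : p = 3
  · -- `p = 3`: the image is cyclic
    subst hp3
    obtain ⟨s, hs⟩ := SetLike.exists_not_mem_of_ne_top G
      (fun h => by rw [h, Subgroup.index_top] at hG; exact absurd hG (by decide)) rfl
    let f : GalQ →* (Matrix (Fin 2) (Fin 2) K)ˣ := M.toHomUnits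
    have hf : ∀ g g', f g = f g' ↔ M g = M g' := fun g g' =>
      ⟨fun h => congrArg Units.val h, fun h => Units.ext h⟩
    have : Finite (Module.End (ZMod 3) (Tors W 3)) := Module.finite_of_finite (ZMod 3)
    have : Finite f.range := Finite.of_injective
      (fun x => rhoTors W 3 x.2.choose) fun x y h => Subtype.ext <| by
        rw [← x.2.choose_spec, ← y.2.choose_spec]
        exact (hf _ _).mpr ((hMrho _ _).mpr h)
    have hP : IsPGroup 2 f.range := fun x => by
      obtain ⟨g, hg⟩ := x.2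
      refine ⟨4, Subtype.ext (Units.ext ?_)⟩
      rw [SubgroupClass.coe_pow, ← hg, Units.val_pow_eq_pow_val]
      exact monomial_pow_eq_one (p := 3) M hint hd hG g
    obtain ⟨n, hn⟩ := IsPGroup.iff_card.mp hP
    let fr := f.rangeRestrict
    set Z := Subgroup.zpowers (fr s) with hZ
    obtain ⟨j, hj⟩ := IsPGroup.iff_card.mp (hP.to_subgroup Z)
    have htop : Z = ⊤ := by
      by_contra hne
      have hlt : j < n := by
        by_contra hle
        push Not at hle
        apply hne
        refine Subgroup.eq_top_of_le_card Z ?_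
        rw [hn, hj]
        exact Nat.pow_le_pow_right (by norm_num) hle
      obtain ⟨K', hK'card, hZK'⟩ := Sylow.exists_subgroup_card_pow_prime_le 2
        (m := n - 1) (hn ▸ pow_dvd_pow 2 (Nat.sub_le n 1)) Z hj (by omega)
      have hidx : K'.index = 2 := by
        have h1 := K'.card_mul_index
        rw [hK'card, hn, show n = n - 1 + 1 by omega, pow_succ, Nat.add_sub_cancel] at h1
        exact Nat.eq_of_mul_eq_mul_left (pow_pos two_pos _) h1
      have hidx' : (K'.comap fr).index = 2 := by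
        rw [Subgroup.index_comap_of_surjective _ f.rangeRestrict_surjective, hidx]
      have h1 := (hquad _ hidx' fun g hg => by
        rw [Subgroup.mem_comap, show fr g = 1 from Subtype.ext (Units.ext hg)]
        exact K'.one_mem) s
      exact hs ((hGη s).mpr (h1.mp (hZK' (Subgroup.mem_zpowers (fr s)))))
    refine not_commute_of_irreducible W hΔ (by decide) hirr fun σ τ => ?_
    rw [← map_mul, ← map_mul, ← hMrho]
    obtain ⟨a, ha'⟩ := Subgroup.mem_zpowers_iff.mp (htop.symm ▸ Subgroup.mem_top (fr σ) :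
      fr σ ∈ Z)
    obtain ⟨b, hb'⟩ := Subgroup.mem_zpowers_iff.mp (htop.symm ▸ Subgroup.mem_top (fr τ) :
      fr τ ∈ Z)
    have h1 : fr (σ * τ) = fr (τ * σ) := by
      rw [map_mul, map_mul, ← ha', ← hb', ← zpow_add, ← zpow_add, add_comm]
    exact congrArg (fun x : f.range => ((x : (Matrix (Fin 2) (Fin 2) K)ˣ) : Matrix (Fin 2) (Fin 2) K)) h1
  · -- `p ≥ 5`: inertia at `p`
    obtain ⟨A, hA⟩ := Galois.exists_liesOverPrime (L := Qbar) hpr
    obtain ⟨a₀, ha₀, ha₁⟩ := exists_not_isSquare_add_one_ne_zero p hp2 hp3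
    obtain ⟨σ, hσI, hσ2⟩ := exists_inertia_cycChar p hA a₀
      fun h => ha₀ (h ▸ IsSquare.zero)
    have hσG : σ ∉ G := fun h => by
      rw [hGη, eulerChar_eq_one_iff, hσ2] at h
      exact ha₀ h
    have htr0 : LinearMap.trace (ZMod p) (Tors W p) (rhoTors W p σ) = 0 := by
      apply (ZMod.castHom (dvd_refl p) K).injective
      rw [← htr, hMtr, monomial_trace_eq_zero M ha hσG, map_zero]
    by_cases hord : ECFormal.OrdinaryAtPlace W p A
    · rw [trace_eq_det_add_one_of_ordinary W hΔ hp2 (hW p hpr) hA hord hσI,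
        CondLevel.det_rhoTors W hΔ, hσ2] at htr0
      exact ha₁ htr0
    have hgood : ¬ (p : ℤ) ∣ W.Δ := fun hdv =>
      hord (ECFormal.ordinaryAtPlace_of_mult W hΔ hpr hp2 hA hdv (hW p hpr hdv))
    -- inertia is commutative
    let ru : A.decompositionSubgroup ℚ →* (Matrix (Fin 2) (Fin 2) K)ˣ :=
      M.toHomUnits.comp (A.decompositionSubgroup ℚ).subtype
    obtain ⟨τ₀, -, hgen, -⟩ := TWGal.exists_tame_generator hA hpr ru L
      (fun x hx => Units.ext ((hM1 x.1).mpr (hLρ x.1 hx)))
      (fun x _ k hk => Units.ext (monomial_eq_one_of_pow (p := p) M hint hd hG hp2 x.1 k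
        (by simpa [ru] using congrArg Units.val hk)))
    have hcomm : ∀ g ∈ A.inertiaSubgroupIn ℚ, M g * M σ = M σ * M g := fun g hg => by
      obtain ⟨a, ha'⟩ := Subgroup.mem_zpowers_iff.mp
        (hgen ⟨g, Galois.inertia_le_decomposition A hg⟩ hg)
      obtain ⟨b, hb'⟩ := Subgroup.mem_zpowers_iff.mp
        (hgen ⟨σ, Galois.inertia_le_decomposition A hσI⟩ hσI)
      have h1 : ru τ₀ ^ a * ru τ₀ ^ b = ru τ₀ ^ b * ru τ₀ ^ a := by
        rw [← zpow_add, ← zpow_add, add_comm]
      rw [ha', hb'] at h1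
      exact congrArg Units.val h1
    have hscal : ∀ g ∈ A.inertiaSubgroupIn ℚ, g ∈ G →
        ∃ c : ℤ, rhoTors W p g = (c : ZMod p) • 1 := by
      intro g hg hgG
      obtain ⟨c, hc⟩ := monomial_scalar_of_commute (p := p) M hint hd ha hp2 hgG hσG (hcomm g hg)
      refine ⟨c, ?_⟩
      rw [← hmap, ← hMsc]
      exact hc
    have hσσ : ∀ x : Tors W p, σ • σ • x = (-a₀) • x := by
      obtain ⟨n, hn⟩ := ZMod.intCast_surjective a₀
      have h1 : M (σ * σ) = ((-n : ℤ) : K) • 1 := by
        rw [map_mul, monomial_sq M ha hσG, ← hMdet, hdet, CondLevel.det_rhoTors W hΔ, hσ2, ← hn,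
          map_intCast, Int.cast_neg]
      have h2 : rhoTors W p (σ * σ) = ((-n : ℤ) : ZMod p) • 1 := by rwa [hMsc, hmap] at h1
      intro x
      have h3 := LinearMap.congr_fun h2 x
      rw [rhoTors_apply, mul_smul, LinearMap.smul_apply, Module.End.one_apply] at h3
      simpa [hn] using h3
    have hsm : ∀ g (a : ZMod p) (x : Tors W p), g • (a • x) = a • (g • x) := fun g a x => by
      rw [← rhoTors_apply, ← rhoTors_apply, map_smul]
    have : Nontrivial (Tors W p) := Module.nontrivial_of_finrank_pos (R := ZMod p)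
      (by rw [CondLevel.finrank_tors W hΔ p]; norm_num)
    obtain ⟨v, hv⟩ := exists_ne (0 : Tors W p)
    refine not_lines_stable_of_supersingular W hΔ hp2 hA hgood hord v (σ • v) hv
      fun g hg x hx => ?_
    by_cases hgG : g ∈ G
    · obtain ⟨c, hc⟩ := hscal g hg hgG
      rw [← rhoTors_apply, hc, LinearMap.smul_apply, Module.End.one_apply]
      exact hx.imp (Submodule.smul_mem _ _) (Submodule.smul_mem _ _)
    · have hgσ : g * σ⁻¹ ∈ G := by
        rw [Subgroup.mul_mem_iff_of_index_two hG, inv_mem_iff]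
        simp [hgG, hσG]
      obtain ⟨c, hc⟩ := hscal _ ((A.inertiaSubgroupIn ℚ).mul_mem hg
        ((A.inertiaSubgroupIn ℚ).inv_mem hσI)) hgσ
      have hgx : g • x = (c : ZMod p) • σ • x := by
        calc g • x = (g * σ⁻¹) • σ • x := by rw [smul_smul, inv_mul_cancel_right]
          _ = (c : ZMod p) • σ • x := by
            rw [← rhoTors_apply, hc, LinearMap.smul_apply, Module.End.one_apply]
      rw [hgx]
      rcases hx with h | h <;> obtain ⟨a, rfl⟩ := Submodule.mem_span_singleton.mp h <;>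
        rw [hsm, smul_smul]
      · exact Or.inr (Submodule.smul_mem _ _ (Submodule.mem_span_singleton_self _))
      · refine Or.inl ?_
        rw [hσσ, smul_smul]
        exact Submodule.smul_mem _ _ (Submodule.mem_span_singleton_self _)

include hΔ in
/-- `E[p]` has no proper subspace stable under a subgroup of index two, `p = 3, 5`. -/
theorem eq_bot_or_eq_top_of_index_two (hp : p = 3 ∨ p = 5) (hW : W.IsSemistableModel)
    (hirr : W.ModRepIsIrreducible p) (hV : finrank K V = 2)
    (hmap : ∀ σ (c : ℤ), r σ = (c : K) • 1 ↔ rhoTors W p σ = (c : ZMod p) • 1)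
    (htr : ∀ σ, LinearMap.trace K V (r σ) =
      ZMod.castHom (dvd_refl p) K (LinearMap.trace (ZMod p) (Tors W p) (rhoTors W p σ)))
    (hdet : ∀ σ, LinearMap.det (r σ) =
      ZMod.castHom (dvd_refl p) K (LinearMap.det (rhoTors W p σ)))
    (G : Subgroup GalQ) (hG : G.index = 2) (U : Submodule K V)
    (hU : ∀ g ∈ G, ∀ x ∈ U, r g x ∈ U) : U = ⊥ ∨ U = ⊤ :=
  eq_bot_or_eq_top_of_index_two_odd W hΔ r (by rcases hp with rfl | rfl <;> decide) hW hirr hV
    hmap htr hdet G hG U hU

end Fermat.Agent.R59
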