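import Fermat.Agent.R59.Setup.Det
import Fermat.Agent.R59.Setup.Inputs
import Fermat.Agent.R59.DefRings
import Fermat.Agent.Datum.FromTate
import Fermat.Agent.HK.TateFinal
import Fermat.Agent.TraceFn.S31Final
import Fermat.Agent.TWGal.Augmentation
import Fermat.Agent.TateE.Main
import Fermat.Agent.GAL.FromSpecialization
import Fermat.Agent.MF.IntStruct.Hecke

/-!
# The base representation of a point of the Hecke algebra

A point congruent to `ρbar` gives, through the Hecke Galois datum of its localisation, a lift with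
the expected Frobenius, determinant and local behaviour.
-/

set_option autoImplicit false
set_option synthInstance.maxHeartbeats 400000
set_option maxHeartbeats 1000000

noncomputable section

open IsLocalRing Polynomial CuspForm
open scoped TensorProduct

namespace Fermat.Agent.R59

local notation "Γℚ" => (AlgebraicClosure ℚ ≃ₐ[ℚ] AlgebraicClosure ℚ)

/-- Ordinarity passes to base changes. -/
theorem isOrdinaryAt_baseChangeAlong {A B : Type} [CommRing A] [IsLocalRing A] [CommRing B]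
    [IsLocalRing B] (φ : A →+* B) (hφ : IsLocalHom φ) {ρ : GaloisRepAdic A} {p : ℕ}
    (h : ρ.IsOrdinaryAt p) : (ρ.baseChangeAlong φ hφ).IsOrdinaryAt p := by
  intro P hP
  obtain ⟨L, ⟨b, hb⟩, hD, hI⟩ := h P hP
  let _ : Algebra A B := φ.toAlgebra
  set L' : Submodule B (B ⊗[A] ρ.V) := B ∙ ((1 : B) ⊗ₜ[A] b 0) with hL'
  have hmem : ∀ (c : B) (w : ρ.V), w ∈ L → c ⊗ₜ[A] w ∈ L' := fun c w hw => by
    rw [hb, Submodule.mem_span_singleton] at hw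
    obtain ⟨r, rfl⟩ := hw
    refine Submodule.mem_span_singleton.mpr ⟨r • c, ?_⟩
    rw [TensorProduct.smul_tmul', smul_eq_mul, mul_one, TensorProduct.smul_tmul]
  have hb0 : b 0 ∈ L := hb ▸ Submodule.mem_span_singleton_self _
  have h1 : L' = B ∙ (b.baseChange B) 0 := by rw [Module.Basis.baseChange_apply]
  have h2 : ∀ σ ∈ P.decompositionSubgroup ℚ, ∀ v ∈ L', (ρ.ρ σ).baseChange B v ∈ L' := by
    intro σ hσ v hv
    obtain ⟨c, rfl⟩ := Submodule.mem_span_singleton.mp hv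
    rw [map_smul, LinearMap.baseChange_tmul]
    exact L'.smul_mem _ (hmem _ _ (hD σ hσ _ hb0))
  have h3 : ∀ σ ∈ P.inertiaSubgroupIn ℚ, ∀ v : B ⊗[A] ρ.V,
      (ρ.ρ σ).baseChange B v - v ∈ L' := by
    intro σ hσ v
    induction v using TensorProduct.induction_on with
    | zero => simp
    | tmul c w =>
      rw [LinearMap.baseChange_tmul, ← TensorProduct.tmul_sub]
      exact hmem _ _ (hI σ hσ w)
    | add x y hx hy =>
      rw [map_add, add_sub_add_comm]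
      exact L'.add_mem hx hy
  exact ⟨L', ⟨b.baseChange B, h1⟩, h2, h3⟩

/-- A point of the Hecke algebra congruent to `ρbar` gives a representation over `𝒪`. -/
theorem exists_baseRep (hS37 : StmtSpec) (h32 : Stmt32) (h33 : Stmt33) (h34 : Stmt34)
    {N : ℕ} [NeZero N] {p : ℕ} [Fact p.Prime] (hp2 : p ≠ 2)
    {𝒪 : Type} [CommRing 𝒪] [IsDomain 𝒪] [IsDiscreteValuationRing 𝒪] [CharZero 𝒪]
    [IsAdicComplete (maximalIdeal 𝒪) 𝒪] [Finite (ResidueField 𝒪)]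
    (hp𝒪 : (p : 𝒪) ∈ maximalIdeal 𝒪) (S : Finset ℕ) (hpS : p ∈ S) (hNS : N.primeFactors ⊆ S)
    (χ : heckeAlgebra N 2 (↑N.primeFactors : Set ℕ) →+* 𝒪)
    (ρbar : ResidualGaloisRep (ResidueField 𝒪)) (habs : ρbar.IsAbsolutelyIrreducible)
    (S₀ : Finset ℕ)
    (hbar : ∀ (ℓ : ℕ) (hℓ : ℓ.Prime) (hℓN : ¬ ℓ ∣ N)
      (hℓN' : ℓ ∉ (↑N.primeFactors : Set ℕ)), ℓ ∉ S₀ →
      ∀ A : ValuationSubring (AlgebraicClosure ℚ), A.LiesOverPrime ℓ →
        ∀ σ : Γℚ, A.IsFrobeniusAt σ ℓ →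
          LinearMap.charpoly (ρbar.ρ σ) = X ^ 2 - C (residue 𝒪 (χ (heckeAlgebra.T hℓ hℓN hℓN'))) * X
            + C ((ℓ : ResidueField 𝒪))) :
    ∃ ρ : GaloisRepAdic 𝒪,
      ρ.residual.IsEquiv (ρbar.baseChangeAlong (ResidueField.map (algebraMap 𝒪 𝒪))) ∧
      ρ.DetIsCyclotomic p ∧
      (∀ (ℓ : ℕ) (hℓ : ℓ.Prime) (hℓN : ¬ ℓ ∣ N) (hℓN' : ℓ ∉ (↑N.primeFactors : Set ℕ)), ℓ ∉ S →
        ∀ A : ValuationSubring (AlgebraicClosure ℚ), A.LiesOverPrime ℓ →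
          ∀ σ : Γℚ, A.IsFrobeniusAt σ ℓ →
            LinearMap.charpoly (ρ.ρ σ) =
              X ^ 2 - C (χ (heckeAlgebra.T hℓ hℓN hℓN')) * X + C ((ℓ : 𝒪))) ∧
      (∀ q : ℕ, q.Prime → q ∉ S → ρ.IsUnramifiedAt q) ∧
      (∀ q : ℕ, q.Prime → q ≠ p → q ∣ N → ¬ q ^ 2 ∣ N → ρ.IsUnipotentOnInertiaAt q) ∧
      (¬ p ∣ N → ρ.IsFlatAt p) ∧
      (p ∣ N → ¬ p ^ 2 ∣ N → (GaloisRepAdic.ofResidualGaloisRep ρbar).IsStrictOrdinaryAt p →
        ρ.IsOrdinaryAt p) := by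
  have hp : p.Prime := Fact.out
  have : Fact (HasIntegralStructure N 2) := ⟨MF.IntStruct.hasIntegralStructure N 2⟩
  have := MF.IntStruct.moduleFinite_heckeAlgebra N 2 ∅
  have hsub : (↑N.primeFactors : Set ℕ) ⊆ (↑S : Set ℕ) := Finset.coe_subset.mpr hNS
  have hNS' : ∀ q : ℕ, q.Prime → q ∣ N → q ∈ S := fun q hq hqN =>
    hNS (Nat.mem_primeFactors.mpr ⟨hq, hqN, NeZero.ne N⟩)
  let χS : heckeAlgebra N 2 (↑S : Set ℕ) →+* 𝒪 :=
    χ.comp (Subalgebra.inclusion (heckeAlgebra_mono (k := 2) hsub)).toRingHom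
  have hχS : ∀ (ℓ : ℕ) (hℓ : ℓ.Prime) (hℓN : ¬ ℓ ∣ N) (hℓS : ℓ ∉ (↑S : Set ℕ)),
      χS (heckeAlgebra.T hℓ hℓN hℓS) = χ (heckeAlgebra.T hℓ hℓN fun h => hℓS (hsub h)) :=
    fun ℓ hℓ hℓN hℓS => congrArg χ (Subtype.ext rfl)
  let θ := (residue 𝒪).comp χS
  obtain ⟨D⟩ := HK.exists_tateRep N p
  have hquad : GAL.TorsionQuadratic N p :=
    (GAL.torsion_properties_of_specializationExists N p (HK.Corr.heckeOperatorsCommuteBar N)
      (HK.Corr.smulCommClass_heckeModuleBar N)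
      (hS37 N p (HK.Corr.heckeOperatorsCommuteBar N))).1
  obtain ⟨H, hHπ, hHres⟩ := Datum.exists_heckeGaloisRepDatum_of_tateRep (S := (↑S : Set ℕ)) hp2 hp𝒪
    (Finset.mem_coe.mpr hpS) S.finite_toSet D (HK.torsionFiniteLevel N p) hquad θ ρbar habs S₀
    fun ℓ hℓ hℓN hℓS hℓ₀ A hA σ hσ => by
      rw [hbar ℓ hℓ hℓN (fun h => hℓS (hsub h)) hℓ₀ A hA σ hσ, RingHom.comp_apply, hχS]
  obtain ⟨ψ, hψ⟩ := H.exists_point χS fun t => rfl
  have hψs : Function.Surjective (ψ : heckeLocal N (↑S : Set ℕ) 𝒪 θ →+* 𝒪) := fun x =>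
    ⟨algebraMap 𝒪 _ x, (ψ.commutes x).trans rfl⟩
  have hψloc : IsLocalHom (ψ : heckeLocal N (↑S : Set ℕ) 𝒪 θ →+* 𝒪) :=
    IsLocalHom.of_surjective _ hψs
  have hcp : ∀ (ℓ : ℕ) (hℓ : ℓ.Prime) (hℓN : ¬ ℓ ∣ N) (hℓN' : ℓ ∉ (↑N.primeFactors : Set ℕ)),
      ℓ ∉ S → ∀ A : ValuationSubring (AlgebraicClosure ℚ), A.LiesOverPrime ℓ →
        ∀ σ : Γℚ, A.IsFrobeniusAt σ ℓ →
          LinearMap.charpoly
              ((H.ρ.baseChangeAlong (ψ : heckeLocal N (↑S : Set ℕ) 𝒪 θ →+* 𝒪) hψloc).ρ σ) =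
            X ^ 2 - C (χ (heckeAlgebra.T hℓ hℓN hℓN')) * X + C ((ℓ : 𝒪)) := by
    intro ℓ hℓ hℓN hℓN' hℓS A hA σ hσ
    let _ : Algebra (heckeLocal N (↑S : Set ℕ) 𝒪 θ) 𝒪 :=
      (ψ : heckeLocal N (↑S : Set ℕ) 𝒪 θ →+* 𝒪).toAlgebra
    show LinearMap.charpoly ((H.ρ.ρ σ).baseChange 𝒪) = _
    rw [LinearMap.charpoly_baseChange, H.charpoly_frob ℓ hℓ hℓN hℓS A hA σ hσ]
    simp only [Polynomial.map_add, Polynomial.map_sub, Polynomial.map_mul, Polynomial.map_pow,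
      Polynomial.map_X, Polynomial.map_C, RingHom.algebraMap_toAlgebra, AlgHom.coe_toRingHom,
      map_natCast, Polynomial.map_natCast, hψ, hχS]
  refine ⟨H.ρ.baseChangeAlong _ hψloc, TWGal.residual_baseChangeAlong_isEquiv H.ρ hHres ψ hψloc,
    ?_, hcp, fun q hq hqS => ?_, fun q hq hqp hqN hq2 => ?_, fun hpN => ?_,
    fun hpN hp2N hord => ?_⟩
  · refine detIsCyclotomic_of_frobenius _ hp𝒪 S hpS fun ℓ hℓ hℓS A hA σ hσ => ?_
    have hℓN : ¬ ℓ ∣ N := fun h => hℓS (hNS' ℓ hℓ h)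
    exact (CondLevel.trace_det_of_charpoly (GaloisRepAdic.finrank_eq _) _
      (hcp ℓ hℓ hℓN (fun h => hℓS (hsub h)) hℓS A hA σ hσ)).2
  · exact Tangent.isUnramifiedAt_baseChangeAlong _ hψloc
      (TraceFn.isUnramifiedAt_of_specialization hS37 hp hp𝒪 hpS hNS' H q hq hqS)
  · exact Tangent.isUnipotentOnInertiaAt_baseChangeAlong _ hψloc
      (h34 hp hp𝒪 hpS hNS' H q hq hqp hqN hq2)
  · exact TateE.isFlatAt_baseChangeAlong_of_finite _ hψloc inferInstance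
      (h32 hp hp2 hp𝒪 hpN hpS hNS' H)
  · refine isOrdinaryAt_baseChangeAlong _ hψloc (h33 hp hp2 hp𝒪 ⟨hpN, hp2N⟩ hNS' H ?_)
    obtain ⟨e⟩ := hHres
    set κ := ResidueField.map (algebraMap 𝒪 (heckeLocal N (↑S : Set ℕ) 𝒪 θ)) with hκ
    have hκl : IsLocalHom κ := ⟨fun x hx => isUnit_iff_ne_zero.mpr fun h0 => hx.ne_zero (by
      rw [h0, map_zero])⟩
    have h1 : ((GaloisRepAdic.ofResidualGaloisRep ρbar).baseChangeAlong κ hκl).IsStrictOrdinaryAt p :=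
      Tangent.isStrictOrdinaryAt_baseChangeAlong κ hκl hord
    obtain ⟨e'⟩ := ofResidualGaloisRep_isEquiv ⟨e.symm⟩
    exact (Tangent.isStrictOrdinaryAt_of_isEquiv ⟨e'⟩ h1).isOrdinaryAt

end Fermat.Agent.R59
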