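import Fermat.Agent.CondLevel.Compare
import Fermat.Agent.GAL.PointExtend
import Fermat.Prelude.Def_GaloisRep_LocalConditions

/-!
# Cyclotomic determinant from the determinants of Frobenius

Over a discrete valuation ring of characteristic zero containing `p` in its maximal ideal, a
representation with determinant `ℓ` at Frobenius elements outside a finite set has cyclotomic
determinant.
-/

set_option autoImplicit false

noncomputable section

namespace Fermat.Agent.R59

open CondLevel (cycChar zetaN zetaN_spec)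

local notation "Γℚ" => (AlgebraicClosure ℚ ≃ₐ[ℚ] AlgebraicClosure ℚ)

theorem detIsCyclotomic_of_frobenius {O : Type} [CommRing O] [IsDomain O]
    [IsDiscreteValuationRing O] [CharZero O] (ρ : GaloisRepAdic O) {p : ℕ} [Fact p.Prime]
    (hpO : (p : O) ∈ IsLocalRing.maximalIdeal O) (S : Finset ℕ) (hpS : p ∈ S)
    (h : ∀ ℓ : ℕ, ℓ.Prime → ℓ ∉ S → ∀ A : ValuationSubring (AlgebraicClosure ℚ),
      A.LiesOverPrime ℓ → ∀ σ : Γℚ, A.IsFrobeniusAt σ ℓ → LinearMap.det (ρ.ρ σ) = (ℓ : O)) :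
    ρ.DetIsCyclotomic p := by
  have hp : p.Prime := Fact.out
  refine ⟨hpO, fun n σ a ha => ?_⟩
  rcases n with _ | j
  · rw [pow_zero, Nat.cast_one, Ideal.span_singleton_one]
    exact Submodule.mem_top
  set I : Ideal O := Ideal.span {((p ^ (j + 1) : ℕ) : O)} with hI
  obtain ⟨-, m, hm⟩ := CondLevel.exists_pow_le_span (O := O) p hpO j
  have : NeZero (p ^ (j + 1)) := ⟨pow_ne_zero _ hp.ne_zero⟩
  let e : ZMod (p ^ (j + 1)) →+* O ⧸ I := GAL.ofZMod _ (by
    rw [← map_natCast (Ideal.Quotient.mk I), Ideal.Quotient.eq_zero_iff_mem]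
    exact Ideal.mem_span_singleton_self _)
  let χ₁ : Γℚ →* O ⧸ I := LinearMap.det.comp (CondLevel.reduceRep ρ I)
  let χ₂ : Γℚ →* O ⧸ I := e.toMonoidHom.comp (cycChar (p ^ (j + 1)))
  have heq : χ₁ = χ₂ := CondLevel.monoidHom_eq_of_frobenius
    (CondLevel.finiteLevel_comp (CondLevel.reduceRep_finiteLevel ρ I hm) _)
    (CondLevel.finiteLevel_comp (CondLevel.cycChar_finiteLevel _) _) S fun ℓ hℓ hℓS A hA τ hτ => by
      show LinearMap.det (CondLevel.reduceRep ρ I τ) = e (cycChar _ τ)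
      rw [CondLevel.det_reduceRep, h ℓ hℓ hℓS A hA τ hτ, CondLevel.cycChar_frobenius _ hℓ
        (fun hd => hℓS ((Nat.prime_dvd_prime_iff_eq hℓ hp).mp (hℓ.dvd_of_dvd_pow hd) ▸ hpS)) hA hτ,
        map_natCast, map_natCast]
  have hσ : LinearMap.det (CondLevel.reduceRep ρ I σ) = e (cycChar _ σ) := DFunLike.congr_fun heq σ
  rw [CondLevel.det_reduceRep,
    CondLevel.cycChar_eq_natCast _ (ha _ (zetaN_spec (p ^ (j + 1))).pow_eq_one), map_natCast] at hσ
  refine Ideal.Quotient.eq.mp ?_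
  rw [hσ, map_natCast]

end Fermat.Agent.R59
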