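import Fermat.Agent.CondLevel.Cyclo
import Fermat.Agent.Galois.Unramified
import Fermat.Agent.TWGal.Tame
import Mathlib.NumberTheory.LegendreSymbol.Basic

/-!
# The only quadratic character unramified outside an odd prime `p`

A subgroup of index two of the absolute Galois group of `ℚ` containing the inertia groups at all
primes other than `p` consists of the elements whose mod `p` cyclotomic character is a square.
-/

set_option autoImplicit false

noncomputable section

namespace Fermat.Agent.R59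

open Fermat.Agent.Galois (Qbar GalQ InertiaLE)
open Fermat.Agent.CondLevel (cycChar zetaN zetaN_spec)

variable (p : ℕ) [Fact p.Prime]

/-- The quadratic character of `ℚ(√±p)`, with values in `ZMod p`. -/
def eulerChar : GalQ →* ZMod p where
  toFun σ := cycChar p σ ^ (p / 2)
  map_one' := by rw [map_one, one_pow]
  map_mul' a b := by rw [map_mul, mul_pow]

theorem cycChar_ne_zero (σ : GalQ) : cycChar p σ ≠ 0 := fun h => by
  have := congrArg (cycChar p) (mul_inv_cancel σ)
  rw [map_mul, h, zero_mul, map_one] at this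
  exact zero_ne_one this

theorem eulerChar_eq_one_or (σ : GalQ) : eulerChar p σ = 1 ∨ eulerChar p σ = -1 :=
  ZMod.pow_div_two_eq_neg_one_or_one p (cycChar_ne_zero p σ)

theorem eulerChar_eq_one_iff (σ : GalQ) : eulerChar p σ = 1 ↔ IsSquare (cycChar p σ) :=
  (ZMod.euler_criterion p (cycChar_ne_zero p σ)).symm

/-- Inertia at `p` surjects on the mod `p` cyclotomic character. -/
theorem exists_inertia_cycChar {A : ValuationSubring Qbar} (hA : A.LiesOverPrime p)
    (a : ZMod p) (ha : a ≠ 0) : ∃ σ ∈ A.inertiaSubgroupIn ℚ, cycChar p σ = a := by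
  have hp : p.Prime := Fact.out
  have : NeZero (p ^ 1) := ⟨by simpa using hp.ne_zero⟩
  have hco : Nat.Coprime a.val (p ^ 1) := by
    rw [pow_one, Nat.coprime_comm, hp.coprime_iff_not_dvd]
    intro h
    exact ha (by simpa [ZMod.natCast_val] using (ZMod.natCast_eq_zero_iff a.val p).mpr h)
  have hn : Nat.card (rootsOfUnity (p ^ 1) Qbar) = p ^ 1 := by
    exact HasEnoughRootsOfUnity.natCard_rootsOfUnity Qbar (p ^ 1)
  obtain ⟨σ, hσ, hu⟩ := Galois.exists_inertia_modularCyclotomicCharacter_eq hA hp 1 hn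
    (ZMod.unitOfCoprime a.val hco)
  refine ⟨σ, hσ, ?_⟩
  rw [CondLevel.cycChar_eq_natCast p (a := a.val) ?_, ZMod.natCast_zmod_val]
  have hz : zetaN p ^ p ^ 1 = 1 := by rw [pow_one]; exact (zetaN_spec p).pow_eq_one
  have h := modularCyclotomicCharacter.spec Qbar hn (σ : Qbar ≃+* Qbar)
    (t := (rootsOfUnity.mkOfPowEq (zetaN p) hz).1) (rootsOfUnity.mkOfPowEq (zetaN p) hz).2
  rw [hu, ZMod.coe_unitOfCoprime, ZMod.val_natCast,
    Nat.mod_eq_of_lt (by rw [pow_one]; exact ZMod.val_lt a)] at h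
  simpa using h

/-- The indicator of a subgroup of index two, with values in `ZMod p`. -/
def signChar (G : Subgroup GalQ) (hG : G.index = 2) : GalQ →* ZMod p :=
  open scoped Classical in
  { toFun := fun σ => if σ ∈ G then 1 else -1
    map_one' := if_pos G.one_mem
    map_mul' := fun a b => by
      by_cases ha : a ∈ G <;> by_cases hb : b ∈ G <;>
        simp [Subgroup.mul_mem_iff_of_index_two hG, ha, hb] }

theorem mem_iff_signChar (hp2 : p ≠ 2) (G : Subgroup GalQ) (hG : G.index = 2) (σ : GalQ) :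
    σ ∈ G ↔ signChar p G hG σ = 1 := by
  have : (-1 : ZMod p) ≠ 1 := Ring.neg_one_ne_one_of_char_ne_two (by
    rw [ZMod.ringChar_zmod_n]; exact hp2)
  by_cases h : σ ∈ G <;> simp [signChar, h, this]

/-- The only index two subgroup unramified outside `p`. -/
theorem mem_iff_eulerChar_eq_one (hp2 : p ≠ 2) (G : Subgroup GalQ) (hG : G.index = 2)
    (hfix : ∃ F : IntermediateField ℚ Qbar, FiniteDimensional ℚ F ∧ F.fixingSubgroup ≤ G)
    (hur : ∀ q : ℕ, q.Prime → q ≠ p → InertiaLE q G) (σ : GalQ) :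
    σ ∈ G ↔ eulerChar p σ = 1 := by
  have hp : p.Prime := Fact.out
  have hn : G.Normal := Subgroup.normal_of_index_eq_two hG
  set ε := signChar p G hG with hε
  have hmem := mem_iff_signChar p hp2 G hG
  set η := eulerChar p with hη
  -- the product character is trivial
  suffices H : (ε.toHomUnits * η.toHomUnits).ker = ⊤ by
    have h1 : ε σ * η σ = 1 := by
      have := (Subgroup.eq_top_iff' _).mp H σ
      rw [MonoidHom.mem_ker, MonoidHom.mul_apply, Units.ext_iff] at this
      simpa using this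
    rw [hmem σ]
    constructor <;> intro h
    · rwa [h, one_mul] at h1
    · rwa [h, mul_one] at h1
  obtain ⟨F, hF, hFG⟩ := hfix
  obtain ⟨L, hL, hLχ⟩ := CondLevel.cycChar_finiteLevel p
  have hη1 : ∀ σ, cycChar p σ = 1 → η σ = 1 := fun σ h => by
    show cycChar p σ ^ (p / 2) = 1
    rw [h, one_pow]
  have hkerOf : ∀ σ, ε σ = 1 → η σ = 1 → σ ∈ (ε.toHomUnits * η.toHomUnits).ker := by
    intro σ h1 h2
    rw [MonoidHom.mem_ker, MonoidHom.mul_apply, Units.ext_iff]
    simp [h1, h2]
  refine Galois.eq_top_of_forall_inertiaLE _ ⟨F ⊔ L, inferInstance, fun σ hσ => ?_⟩ fun q hq => ?_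
  · rw [IntermediateField.mem_fixingSubgroup_iff] at hσ
    refine hkerOf σ ((hmem σ).mp (hFG ?_)) (hη1 σ (hLχ σ fun x hx => hσ x (le_sup_right (a := F) hx)))
    rw [IntermediateField.mem_fixingSubgroup_iff]
    exact fun x hx => hσ x (le_sup_left (b := L) hx)
  by_cases hqp : q = p
  swap
  · exact fun A hA σ hσ => hkerOf σ ((hmem σ).mp (hur q hq hqp A hA hσ))
      (hη1 σ (CondLevel.cycChar_inertia p hq
        (fun h => hqp ((Nat.prime_dvd_prime_iff_eq hq hp).mp h)) hA hσ))
  subst hqp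
  intro A hA σ hσ
  let r : A.decompositionSubgroup ℚ →* (ZMod q)ˣ × (ZMod q)ˣ :=
    (ε.toHomUnits.prod η.toHomUnits).comp (A.decompositionSubgroup ℚ).subtype
  have hr : ∀ x : A.decompositionSubgroup ℚ, (∀ y ∈ F ⊔ L, x.1 y = y) → r x = 1 := by
    intro x hx
    refine Prod.ext (Units.ext ?_) (Units.ext ?_)
    · refine (hmem _).mp (hFG ?_)
      rw [IntermediateField.mem_fixingSubgroup_iff]
      exact fun y hy => hx y (le_sup_left (b := L) hy)
    · exact hη1 _ (hLχ _ fun y hy => hx y (le_sup_right (a := F) hy))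
  have htors : ∀ x : A.decompositionSubgroup ℚ, x.1 ∈ A.inertiaSubgroupIn ℚ →
      ∀ k : ℕ, r x ^ q ^ k = 1 → r x = 1 := by
    intro x _ k hk
    have hodd : Odd (q ^ k) := (hp.odd_of_ne_two hp2).pow
    refine Prod.ext (Units.ext ?_) (Units.ext ?_)
    · have h1 : (ε x.1) ^ q ^ k = 1 := by
        have := congrArg (fun u : (ZMod q)ˣ × (ZMod q)ˣ => (u.1 : ZMod q)) hk
        simpa [r] using this
      show ε x.1 = 1
      rcases (em (x.1 ∈ G)) with hx | hx
      · exact (hmem _).mp hx
      · have he : ε x.1 = -1 := by simp [hε, signChar, hx]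
        rwa [he, hodd.neg_one_pow, ← he] at h1
    · have h1 : (η x.1) ^ q ^ k = 1 := by
        have := congrArg (fun u : (ZMod q)ˣ × (ZMod q)ˣ => (u.2 : ZMod q)) hk
        simpa [r] using this
      show η x.1 = 1
      rcases eulerChar_eq_one_or q x.1 with he | he
      · exact he
      · rwa [he, hodd.neg_one_pow, ← he] at h1
  obtain ⟨τ₀, hτI, hgen, -⟩ := TWGal.exists_tame_generator hA hp r (F ⊔ L) hr htors
  have hsnd : ∀ x ∈ A.inertiaSubgroupIn ℚ, ∃ n : ℤ,
      ε.toHomUnits x = ε.toHomUnits τ₀.1 ^ n ∧ η.toHomUnits x = η.toHomUnits τ₀.1 ^ n := by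
    intro x hx
    obtain ⟨n, hn⟩ := Subgroup.mem_zpowers_iff.mp
      (hgen ⟨x, Galois.inertia_le_decomposition A hx⟩ hx)
    exact ⟨n, (congrArg Prod.fst hn).symm, (congrArg Prod.snd hn).symm⟩
  -- the Euler character is ramified
  have hητ : η τ₀.1 = -1 := by
    rcases eulerChar_eq_one_or q τ₀.1 with h | h
    · exfalso
      obtain ⟨a, ha⟩ := FiniteField.exists_nonsquare (F := ZMod q)
        (by rw [ZMod.ringChar_zmod_n]; exact hp2)
      have ha0 : a ≠ 0 := fun h0 => ha (h0 ▸ IsSquare.zero)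
      obtain ⟨x, hx, hxa⟩ := exists_inertia_cycChar q hA a ha0
      obtain ⟨n, -, hn⟩ := hsnd x hx
      rw [show η.toHomUnits τ₀.1 = 1 from Units.ext h, one_zpow, Units.ext_iff] at hn
      exact ha (hxa ▸ (eulerChar_eq_one_iff q x).mp hn)
    · exact h
  -- the given character is ramified
  have hετ : ε τ₀.1 = -1 := by
    by_contra hne
    have hτG : τ₀.1 ∈ G := by
      by_contra h
      exact hne (by simp [hε, signChar, h])
    have hIG : ∀ x ∈ A.inertiaSubgroupIn ℚ, x ∈ G := fun x hx => by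
      obtain ⟨n, hn, -⟩ := hsnd x hx
      rw [show ε.toHomUnits τ₀.1 = 1 from Units.ext ((hmem _).mp hτG), one_zpow,
        Units.ext_iff] at hn
      exact (hmem x).mpr hn
    have htop : G = ⊤ := by
      refine Galois.eq_top_of_forall_inertiaLE G ⟨F, hF, hFG⟩ fun ℓ hℓ => ?_
      by_cases hℓp : ℓ = q
      · subst hℓp
        intro B hB x hx
        obtain ⟨t, rfl⟩ := Galois.exists_smul_eq hA hB hℓ
        rw [Galois.mem_inertia_smul_iff] at hx
        simpa [mul_assoc] using hn.conj_mem _ (hIG _ hx) t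
      · exact hur ℓ hℓ hℓp
    rw [htop, Subgroup.index_top] at hG
    exact absurd hG (by decide)
  obtain ⟨n, h1, h2⟩ := hsnd σ hσ
  rw [MonoidHom.mem_ker, MonoidHom.mul_apply, h1, h2,
    show ε.toHomUnits τ₀.1 = η.toHomUnits τ₀.1 from Units.ext (hετ.trans hητ.symm),
    ← mul_zpow, ← map_mul]
  rw [show η.toHomUnits (τ₀.1 * τ₀.1) = 1 from Units.ext (by
    show η (τ₀.1 * τ₀.1) = 1
    rw [map_mul, hητ, neg_mul_neg, one_mul]), one_zpow]

end Fermat.Agent.R59
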