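import Fermat.Agent.R59.Setup.Monomial
import Fermat.Agent.R59.Setup.Orbit
import Fermat.Agent.R59.Setup.Quadratic
import Fermat.Agent.CondLevel.Compare

/-!
# Inertia at `p` and the quadratic subfield

The facts on `E[p]` which forbid monomial image for `p = 5`: inertia at `p` has an element of
nonzero trace outside every subgroup of index two.
-/

set_option autoImplicit false

noncomputable section

namespace Fermat.Agent.R59

open Module WeierstrassCurve
open Fermat.Agent.Galois (Qbar GalQ InertiaLE)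
open Fermat.Agent.CondLevel (Tors rhoTors cycChar)
open scoped WeierstrassCurve.Affine

variable (W : WeierstrassCurve ℤ) (hΔ : W.Δ ≠ 0) {p : ℕ} [Fact p.Prime]

theorem rhoTors_apply (σ : GalQ) (x : Tors W p) : rhoTors W p σ x = σ • x :=
  WeierstrassCurve.Affine.Point.galoisRepModuleEnd_apply ..

/-- For an endomorphism of a plane, `det (f - 1) = det f - trace f + 1`. -/
theorem det_sub_one_of_finrank_two {K V : Type*} [Field K] [AddCommGroup V] [Module K V]
    [Module.Finite K V] (h : finrank K V = 2) (f : Module.End K V) :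
    LinearMap.det (f - 1) = LinearMap.det f - LinearMap.trace K V f + 1 := by
  let b := finBasisOfFinrankEq K V h
  rw [← LinearMap.det_toMatrix b (f - 1), ← LinearMap.det_toMatrix b f, LinearMap.trace_eq_matrix_trace K b,
    map_sub, LinearMap.toMatrix_one]
  generalize LinearMap.toMatrix b b f = X
  simp [Matrix.det_fin_two, Matrix.trace_fin_two]
  ring

include hΔ in
/-- Ordinary reduction: inertia has trace `1 + det`. -/
theorem trace_eq_det_add_one_of_ordinary (hp2 : p ≠ 2) (hss : ECFormal.SemistableAt W p)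
    {A : ValuationSubring Qbar} (hA : A.LiesOverPrime p)
    (hord : ECFormal.OrdinaryAtPlace W p A) {σ : GalQ} (hσ : σ ∈ A.inertiaSubgroupIn ℚ) :
    LinearMap.trace (ZMod p) (Tors W p) (rhoTors W p σ) =
      LinearMap.det (rhoTors W p σ) + 1 := by
  have := CondLevel.moduleFinite_tors W hΔ p
  suffices h : LinearMap.det (rhoTors W p σ - 1) = 0 by
    rw [det_sub_one_of_finrank_two (CondLevel.finrank_tors W hΔ p)] at h
    linear_combination -h
  by_contra h
  have hsurj : Function.Surjective (rhoTors W p σ - 1 : Module.End (ZMod p) (Tors W p)) :=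
    ((Module.End.isUnit_iff _).mp ((LinearMap.isUnit_iff_isUnit_det _).mpr
      (isUnit_iff_ne_zero.mpr h))).2
  obtain ⟨x, hx⟩ := hord
  obtain ⟨y, rfl⟩ := hsurj x
  refine hx ?_
  rw [LinearMap.sub_apply, Module.End.one_apply, rhoTors_apply]
  exact ECFormal.inKernel_smul_sub_tors W hΔ hA Fact.out hp2 hss hσ (n := 1)
    ⟨y.1, by rw [pow_one]; exact y.2⟩

/-- Two proper subspaces do not cover. -/
theorem exists_notMem_two {K V : Type*} [Field K] [AddCommGroup V] [Module K V]
    {L₁ L₂ : Submodule K V} (h₁ : L₁ ≠ ⊤) (h₂ : L₂ ≠ ⊤) : ∃ x, x ∉ L₁ ∧ x ∉ L₂ := by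
  by_contra hcon
  push Not at hcon
  obtain ⟨a, ha⟩ := SetLike.exists_not_mem_of_ne_top L₁ h₁ rfl
  obtain ⟨b, hb⟩ := SetLike.exists_not_mem_of_ne_top L₂ h₂ rfl
  have ha2 : a ∈ L₂ := hcon a ha
  have hb1 : b ∈ L₁ := by_contra fun h => hb (hcon b h)
  by_cases h : a + b ∈ L₁
  · exact ha (by simpa using L₁.sub_mem h hb1)
  · exact hb (by simpa using L₂.sub_mem (hcon _ h) ha2)

include hΔ in
/-- Supersingular reduction: inertia does not permute two lines. -/
theorem not_lines_stable_of_supersingular (hp2 : p ≠ 2) {A : ValuationSubring Qbar}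
    (hA : A.LiesOverPrime p) (hgood : ¬ (p : ℤ) ∣ W.Δ) (hord : ¬ ECFormal.OrdinaryAtPlace W p A)
    (v u : Tors W p) (hv : v ≠ 0)
    (h : ∀ σ ∈ A.inertiaSubgroupIn ℚ,
      ∀ x, x ∈ Submodule.span (ZMod p) {v} ∨ x ∈ Submodule.span (ZMod p) {u} →
        σ • x ∈ Submodule.span (ZMod p) {v} ∨ σ • x ∈ Submodule.span (ZMod p) {u}) : False := by
  have := CondLevel.moduleFinite_tors W hΔ p
  have hne : ∀ w : Tors W p, Submodule.span (ZMod p) {w} ≠ ⊤ := fun w ht => by
    have h1 := finrank_span_le_card (R := ZMod p) ({w} : Set (Tors W p))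
    rw [ht, finrank_top, CondLevel.finrank_tors W hΔ p] at h1
    simp at h1
  obtain ⟨x, hxv, hxu⟩ := exists_notMem_two (hne v) (hne u)
  have hx0 : x ≠ 0 := fun h0 => hxv (h0 ▸ zero_mem _)
  rcases eq_univ_of_inertia_stable W hΔ hA Fact.out hp2 hgood hord
    {x | x ∈ Submodule.span (ZMod p) {v} ∨ x ∈ Submodule.span (ZMod p) {u}}
    ⟨v, Or.inl (Submodule.mem_span_singleton_self v), hv⟩
    (fun x hx => hx.imp neg_mem neg_mem) h x hx0 with h' | h'
  · exact hxv h'
  · exact hxu h'

end Fermat.Agent.R59
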