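import Mathlib

/-!
# Two-dimensional representations reducible on a subgroup of index two

If a representation `ρ` of `G` on a plane over a field of characteristic `p`, with traces and
determinants in the prime field, has no stable line but one stable under a subgroup `H` of index
two, then its matrices are monomial: traces vanish outside `H`, the exponent is prime to `p`, and
an element of `H` commuting with one outside acts by a scalar of the prime field.
-/

set_option autoImplicit false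

noncomputable section

open Module Matrix

namespace Fermat.Agent.R59

variable {G : Type*} [Group G] {K : Type*} [Field K] {V : Type*} [AddCommGroup V] [Module K V]

/-- A root of `T² - tT + d` with `t`, `d` in the prime field is killed by `p² - 1`. -/
theorem pow_sq_sub_one_eq_one {p : ℕ} [Fact p.Prime] [CharP K p] {x y : K} {t d : ℤ}
    (ht : x + y = t) (hd : x * y = d) (hx : x ≠ 0) (hy : y ≠ 0) : x ^ (p ^ 2 - 1) = 1 := by
  have hp : p.Prime := Fact.out
  have hfix : ∀ n : ℤ, (n : K) ^ p = n := fun n => by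
    exact map_intCast (frobenius K p) n
  have h0 : (x ^ p - x) * (x ^ p - y) = 0 := by
    have h1 : x ^ p + y ^ p = x + y := by rw [← add_pow_char, ht, hfix]
    have h2 : x ^ p * y ^ p = x * y := by rw [← mul_pow, hd, hfix]
    linear_combination (x ^ p) * h1 - h2
  have hfac : p ^ 2 - 1 = (p - 1) * (p + 1) := by
    obtain ⟨m, rfl⟩ := Nat.exists_eq_succ_of_ne_zero hp.ne_zero
    simp only [Nat.succ_eq_add_one, add_tsub_cancel_right]
    have : (m + 1) ^ 2 = m * (m + 1 + 1) + 1 := by ring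
    omega
  rw [hfac]
  rcases mul_eq_zero.mp h0 with h | h
  · have h1 : x ^ (p - 1) = 1 := by
      apply mul_left_cancel₀ hx
      rw [← pow_succ', Nat.sub_add_cancel hp.one_le, mul_one]
      exact sub_eq_zero.mp h
    rw [pow_mul, h1, one_pow]
  · have h1 : x ^ (p + 1) = d := by rw [pow_succ, sub_eq_zero.mp h, mul_comm, hd]
    rw [mul_comm, pow_mul, h1]
    apply mul_left_cancel₀ (hd ▸ mul_ne_zero hx hy)
    rw [← pow_succ', Nat.sub_add_cancel hp.one_le, mul_one, hfix]

/-- The monomial shape of a representation reducible on a subgroup of index two. -/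
theorem exists_monomial_basis (hV : finrank K V = 2) (ρ : G →* Module.End K V) (H : Subgroup G)
    (hH : H.index = 2) (w : V) (hw : w ≠ 0) (hstab : ∀ g ∈ H, ∃ c : K, ρ g w = c • w)
    (hirr : ∀ u : V, u ≠ 0 → ∃ g, ∀ c : K, ρ g u ≠ c • u) :
    ∃ M : G →* Matrix (Fin 2) (Fin 2) K,
      (∀ g, LinearMap.trace K V (ρ g) = (M g).trace) ∧
      (∀ g, LinearMap.det (ρ g) = (M g).det) ∧
      (∀ g g', M g = M g' ↔ ρ g = ρ g') ∧
      (∀ g (c : K), M g = c • 1 ↔ ρ g = c • 1) ∧
      (∀ g ∈ H, M g 0 1 = 0 ∧ M g 1 0 = 0) ∧ (∀ g ∉ H, M g 0 0 = 0 ∧ M g 1 1 = 0) := by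
  have : Module.Finite K V := Module.finite_of_finrank_eq_succ hV
  have hn : H.Normal := Subgroup.normal_of_index_eq_two hH
  obtain ⟨s, hs⟩ := hirr w hw
  have hsH : s ∉ H := fun h => by obtain ⟨c, hc⟩ := hstab s h; exact hs c hc
  have hli : LinearIndependent K ![w, ρ s w] := by
    rw [LinearIndependent.pair_iff' hw]
    exact fun a h => hs a h.symm
  let b := basisOfLinearIndependentOfCardEqFinrank hli (by simp [hV])
  have hb0 : b 0 = w := by simp [b]
  have hb1 : b 1 = ρ s w := by simp [b]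
  let M : G →* Matrix (Fin 2) (Fin 2) K :=
    (LinearMap.toMatrixAlgEquiv b).toMulEquiv.toMonoidHom.comp ρ
  have hdiag : ∀ g ∈ H, M g 0 1 = 0 ∧ M g 1 0 = 0 := by
    intro g hg
    obtain ⟨c, hc⟩ := hstab g hg
    obtain ⟨c', hc'⟩ := hstab (s⁻¹ * g * s) (by simpa using hn.conj_mem g hg s⁻¹)
    have h1 : ρ g (b 1) = c' • b 1 := by
      rw [hb1, ← Module.End.mul_apply, ← map_mul, show g * s = s * (s⁻¹ * g * s) by group,
        map_mul, Module.End.mul_apply, hc', map_smul]
    have h0 : ρ g (b 0) = c • b 0 := by rw [hb0, hc]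
    refine ⟨?_, ?_⟩
    · show LinearMap.toMatrixAlgEquiv b (ρ g) 0 1 = 0
      rw [LinearMap.toMatrixAlgEquiv_apply, h1]; simp
    · show LinearMap.toMatrixAlgEquiv b (ρ g) 1 0 = 0
      rw [LinearMap.toMatrixAlgEquiv_apply, h0]; simp
  refine ⟨M, fun g => LinearMap.trace_eq_matrix_trace K b _,
    fun g => (LinearMap.det_toMatrix b _).symm,
    fun g g' => (LinearMap.toMatrixAlgEquiv b).injective.eq_iff, fun g c => ?_, hdiag, fun g hg => ?_⟩
  · rw [← (LinearMap.toMatrixAlgEquiv b).injective.eq_iff (b := c • (1 : Module.End K V)), map_smul,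
      map_one]
    rfl
  have hh : g * s⁻¹ ∈ H := by
    rw [Subgroup.mul_mem_iff_of_index_two hH, inv_mem_iff]
    simp [hg, hsH]
  obtain ⟨hh1, hh2⟩ := hdiag _ hh
  have hs2 : s * s ∈ H := Subgroup.mul_self_mem_of_index_two hH s
  obtain ⟨c, hc⟩ := hstab _ hs2
  have hM : M g = M (g * s⁻¹) * M s := by rw [← map_mul, inv_mul_cancel_right]
  have hs00 : M s 0 0 = 0 := by
    show LinearMap.toMatrixAlgEquiv b (ρ s) 0 0 = 0
    rw [LinearMap.toMatrixAlgEquiv_apply, hb0, ← hb1]; simp
  have hs11 : M s 1 1 = 0 := by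
    show LinearMap.toMatrixAlgEquiv b (ρ s) 1 1 = 0
    rw [LinearMap.toMatrixAlgEquiv_apply, hb1, ← Module.End.mul_apply, ← map_mul, hc, ← hb0]
    simp
  generalize M (g * s⁻¹) = X at hM hh1 hh2
  rw [hM]
  simp [Matrix.mul_apply, Fin.sum_univ_two, hh1, hh2, hs00, hs11]

section Shape

variable {p : ℕ} [Fact p.Prime] [CharP K p] {H : Subgroup G}
  (M : G →* Matrix (Fin 2) (Fin 2) K)
  (hint : ∀ g, ∃ t d : ℤ, (M g).trace = t ∧ (M g).det = d)
  (hd : ∀ g ∈ H, M g 0 1 = 0 ∧ M g 1 0 = 0) (ha : ∀ g ∉ H, M g 0 0 = 0 ∧ M g 1 1 = 0)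

omit [Fact p.Prime] [CharP K p] in
theorem det_ne_zero_of_hom (g : G) : (M g).det ≠ 0 := by
  intro h
  have := congrArg Matrix.det (map_mul M g g⁻¹)
  rw [mul_inv_cancel, map_one, det_one, det_mul, h, zero_mul] at this
  exact one_ne_zero this

include hint hd in
theorem monomial_pow_eq_one_of_mem {g : G} (hg : g ∈ H) : M g ^ (p ^ 2 - 1) = 1 := by
  obtain ⟨h01, h10⟩ := hd g hg
  obtain ⟨t, d, ht, hdet⟩ := hint g
  have hne := det_ne_zero_of_hom M g
  rw [trace_fin_two] at ht
  rw [det_fin_two, h01, zero_mul, sub_zero] at hdet hne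
  have hx := mul_ne_zero_iff.mp hne
  have hM : M g = diagonal ![M g 0 0, M g 1 1] := by
    ext i j; fin_cases i <;> fin_cases j <;> simp [h01, h10]
  rw [hM, diagonal_pow, ← diagonal_one]
  congr 1
  funext i
  fin_cases i
  · simpa using pow_sq_sub_one_eq_one (p := p) ht hdet hx.1 hx.2
  · simpa using pow_sq_sub_one_eq_one (p := p) ((add_comm _ _).trans ht)
      ((mul_comm _ _).trans hdet) hx.2 hx.1

include hint hd in
theorem monomial_pow_eq_one (hH : H.index = 2) (g : G) : M g ^ (2 * (p ^ 2 - 1)) = 1 := by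
  rw [pow_mul, sq, ← map_mul]
  exact monomial_pow_eq_one_of_mem M hint hd (Subgroup.mul_self_mem_of_index_two hH g)

include hint hd in
/-- The image has no `p`-torsion. -/
theorem monomial_eq_one_of_pow (hH : H.index = 2) (hp2 : p ≠ 2) (g : G) (k : ℕ)
    (h : M g ^ p ^ k = 1) : M g = 1 := by
  have hp : p.Prime := Fact.out
  have hcop : Nat.Coprime (p ^ k) (2 * (p ^ 2 - 1)) := by
    refine Nat.Coprime.pow_left k (hp.coprime_iff_not_dvd.mpr fun hdvd => ?_)
    rcases hp.dvd_mul.mp hdvd with h2 | h2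
    · exact hp2 ((Nat.prime_dvd_prime_iff_eq hp Nat.prime_two).mp h2)
    · have h3 : p ∣ p ^ 2 := dvd_pow_self p two_ne_zero
      have h4 := Nat.dvd_sub h3 h2
      rw [Nat.sub_sub_self (Nat.one_le_pow _ _ hp.pos)] at h4
      exact hp.ne_one (Nat.dvd_one.mp h4)
  simpa [hcop] using pow_gcd_eq_one.mpr ⟨h, monomial_pow_eq_one M hint hd hH g⟩

include hint hd in
/-- Unipotent elements act trivially. -/
theorem monomial_eq_one_of_unipotent (hH : H.index = 2) (hp2 : p ≠ 2) (g : G)
    (h : (M g - 1) ^ 2 = 0) : M g = 1 := by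
  refine monomial_eq_one_of_pow (p := p) M hint hd hH hp2 g 1 ?_
  rw [pow_one, ← sub_eq_zero]
  calc M g ^ p - 1 = (M g - 1) ^ p := by
        rw [sub_pow_char_of_commute p (Commute.one_right _), one_pow]
    _ = 0 := pow_eq_zero_of_le (Fact.out (p := p.Prime)).two_le h

include ha in
omit [Fact p.Prime] [CharP K p] in
theorem monomial_trace_eq_zero {g : G} (hg : g ∉ H) : (M g).trace = 0 := by
  rw [trace_fin_two, (ha g hg).1, (ha g hg).2, add_zero]

include ha in
omit [Fact p.Prime] [CharP K p] in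
theorem monomial_sq {g : G} (hg : g ∉ H) : M g * M g = (-(M g).det) • 1 := by
  obtain ⟨h00, h11⟩ := ha g hg
  ext i j
  fin_cases i <;> fin_cases j <;>
    simp [Matrix.mul_apply, Fin.sum_univ_two, det_fin_two, h00, h11, mul_comm]

include hint hd ha in
/-- An element of `H` commuting with one outside `H` is a scalar of the prime field. -/
theorem monomial_scalar_of_commute (hp2 : p ≠ 2) {g s : G} (hg : g ∈ H) (hs : s ∉ H)
    (hc : M g * M s = M s * M g) : ∃ c : ℤ, M g = (c : K) • 1 := by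
  obtain ⟨h00, h11⟩ := ha s hs
  obtain ⟨h01, h10⟩ := hd g hg
  have hne := det_ne_zero_of_hom M s
  rw [det_fin_two, h00, zero_mul, zero_sub, neg_ne_zero, mul_ne_zero_iff] at hne
  have h := congrFun (congrFun hc 0) 1
  simp only [Matrix.mul_apply, Fin.sum_univ_two, h00, h11, h01, mul_zero, add_zero,
    zero_add] at h
  have hxy : M g 0 0 = M g 1 1 := mul_right_cancel₀ hne.1 (h.trans (mul_comm _ _))
  obtain ⟨t, d, ht, -⟩ := hint g
  rw [trace_fin_two, ← hxy] at ht
  have hp : p.Prime := Fact.out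
  have h2 : (2 : K) ≠ 0 := Ring.two_ne_zero (by rw [ringChar.eq K p]; exact hp2)
  obtain ⟨u, hu⟩ := ZMod.intCast_surjective ((2 : ZMod p)⁻¹ * (t : ZMod p))
  refine ⟨u, ?_⟩
  have hz : (2 : ZMod p) ≠ 0 := Ring.two_ne_zero (by rw [ZMod.ringChar_zmod_n]; exact hp2)
  have hu' : 2 * (u : K) = t := by
    have := congrArg (ZMod.castHom (dvd_refl p) K)
      (show (2 : ZMod p) * u = t by rw [hu, mul_inv_cancel_left₀ hz])
    rwa [map_mul, map_ofNat, map_intCast, map_intCast] at this
  have hx : M g 0 0 = u := mul_left_cancel₀ h2 (by rw [hu', two_mul, ht])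
  ext i j
  fin_cases i <;> fin_cases j <;> simp [h01, h10, hx, ← hxy]

end Shape

end Fermat.Agent.R59
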