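import Fermat.Agent.R59.Setup.Coeff
import Fermat.Agent.R59.Setup.Base
import Fermat.Agent.CondLevel.Compare

/-!
# The data of a lifting problem exist

`stmtSetup_of` proves `StmtSetup` from the types of S37, S32, S33, S34 and the two local statements
at `p` of `Setup/Inputs`. The coefficient ring comes from the eigenform of level `baseLevel`, the
base point is its Hecke Galois representation and the curve gives its Tate module.
-/

set_option autoImplicit false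
set_option synthInstance.maxHeartbeats 400000
set_option maxHeartbeats 1000000

noncomputable section

open IsLocalRing Polynomial CuspForm

namespace Fermat.Agent.R59

section BaseLevel

variable (W : WeierstrassCurve ℤ) (p : ℕ)

theorem baseLevel_ne_zero' (hp : p.Prime) (k : Kind) : baseLevel W p k ≠ 0 :=
  mul_ne_zero (minLevel_ne_zero W p) (pow_ne_zero _ hp.ne_zero)

theorem prime_dvd_baseLevel (hp : p.Prime) (k : Kind) {q : ℕ} (hq : q.Prime) :
    q ∣ baseLevel W p k ↔ q ∈ ramPrimes W p ∨ (q = p ∧ k = .strict) := by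
  rw [baseLevel, hq.dvd_mul, dvd_minLevel_iff W p hq]
  cases k <;> simp [Kind.base, Kind.pExp, Nat.prime_dvd_prime_iff_eq hq hp, hq.ne_one]

theorem not_sq_dvd_baseLevel (hΔ : W.Δ ≠ 0) (hp : p.Prime) (k : Kind) {q : ℕ} (hq : q.Prime) :
    ¬ q ^ 2 ∣ baseLevel W p k := by
  classical
  refine not_pow_dvd_of_factorization_lt (baseLevel_ne_zero' W p hp k) hq ?_
  rw [baseLevel, Nat.factorization_mul (minLevel_ne_zero W p) (pow_ne_zero _ hp.ne_zero),
    Nat.factorization_pow, hp.factorization]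
  simp only [Finsupp.add_apply, Finsupp.smul_apply, smul_eq_mul, minLevel,
    factorization_prod_primes (fun _ => prime_of_mem_ramPrimes W p), Finsupp.single_apply]
  have he : k.base.pExp ≤ 1 := by cases k <;> simp [Kind.base, Kind.pExp]
  by_cases h : p = q
  · subst h
    rw [if_neg fun h' => ((mem_ramPrimes W p hΔ).mp h').2.2.1 rfl, if_pos rfl]
    omega
  · rw [if_neg h]
    split_ifs <;> omega

theorem primeFactors_baseLevel_subset (hp : p.Prime) (k : Kind) :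
    (baseLevel W p k).primeFactors ⊆ minSet W p := fun q hq => by
  obtain ⟨hq1, hq2, -⟩ := Nat.mem_primeFactors.mp hq
  rcases (prime_dvd_baseLevel W p hp k hq1).mp hq2 with h | ⟨h, -⟩
  · exact Finset.mem_insert_of_mem h
  · exact h ▸ Finset.mem_insert_self _ _

theorem isResiduallyModular_baseLevel {k : Kind} (h : Admissible W p k) :
    W.IsResiduallyModularOfLevel p (baseLevel W p k) := by
  cases k <;> simp only [baseLevel, Kind.base, Kind.pExp, pow_zero, pow_one, mul_one]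
  · exact h.2
  · exact h.2.1
  · exact h.2

theorem mem_fullSet_of_dvd_Δ (hΔ : W.Δ ≠ 0) {q : ℕ} (hq : q.Prime) (hd : (q : ℤ) ∣ W.Δ) :
    q ∈ fullSet W p := by
  rcases eq_or_ne q p with rfl | hqp
  · exact Finset.mem_insert_self _ _
  · refine Finset.mem_insert_of_mem (Finset.mem_union.mpr ?_)
    by_cases h : ModUnramified W p q
    · exact Or.inr ((mem_raisePrimes W p hΔ).mpr ⟨hq, hd, hqp, h⟩)
    · exact Or.inl ((mem_ramPrimes W p hΔ).mpr ⟨hq, hd, hqp, h⟩)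

end BaseLevel

/-- The data of a lifting problem exist. -/
theorem stmtSetup_of (hS37 : StmtSpec) (h32 : Stmt32) (h33 : Stmt33) (h34 : Stmt34)
    (hstr : StmtStrictPoint) (hur : StmtUnitRootPoint) : StmtSetup := by
  classical
  intro W p k hyp
  obtain ⟨hp35, hΔ, hW, hirr, hadm⟩ := hyp
  have hp : p.Prime := by rcases hp35 with rfl | rfl <;> norm_num
  have : Fact p.Prime := ⟨hp⟩
  have hp2 : p ≠ 2 := by rcases hp35 with rfl | rfl <;> norm_num
  have : NeZero (baseLevel W p k) := ⟨baseLevel_ne_zero' W p hp k⟩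
  set N := baseLevel W p k with hN
  obtain ⟨f, 𝔪, hf, h𝔪, hp𝔪, hcong⟩ := isResiduallyModular_baseLevel W p hadm
  have hm : ¬ p ∣ p ^ 2 - 1 := fun h => by
    have h1 : p ∣ p ^ 2 := dvd_pow_self p two_ne_zero
    have h2 : 1 ≤ p ^ 2 := Nat.one_le_pow _ _ hp.pos
    have h3 := Nat.dvd_sub h1 h
    rw [Nat.sub_sub_self h2] at h3
    exact hp.not_dvd_one h3
  obtain ⟨𝒪, _, _, _, _, _, _, χ, hp𝒪, hζ, hχ⟩ :=
    exists_coeffRing hf (↑N.primeFactors : Set ℕ) hp hm h𝔪 hp𝔪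
  have : CharP (ResidueField 𝒪) p := CondLevel.charP_residueField p hp𝒪
  have : IsLocalHom (algebraMap 𝒪 𝒪) := ⟨fun _ hx => hx⟩
  obtain ⟨φ, hφ⟩ := exists_padicInt_localHom hp𝒪
  let ρbar := curveResidual W hΔ p (ResidueField 𝒪)
  have hsub := primeFactors_baseLevel_subset W p hp k
  have hmf : minSet W p ⊆ fullSet W p :=
    Finset.insert_subset_insert _ Finset.subset_union_left
  have hNmem : ∀ {ℓ : ℕ}, ℓ.Prime → ℓ ∣ N → ℓ ∈ minSet W p := fun {ℓ} hℓ h =>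
    hsub (Nat.mem_primeFactors.mpr ⟨hℓ, h, NeZero.ne N⟩)
  have hgood : ∀ {ℓ : ℕ}, ℓ.Prime → ℓ ∉ fullSet W p → W.IsGoodPrimeFor ℓ ∧ ℓ ≠ p := fun {ℓ} hℓ h =>
    ⟨fun hd => h (mem_fullSet_of_dvd_Δ W p hΔ hℓ hd), fun e => h (e ▸ Finset.mem_insert_self _ _)⟩
  have hres : ∀ (ℓ : ℕ) (hℓ : ℓ.Prime) (hℓN : ¬ ℓ ∣ N)
      (hℓS : ℓ ∉ (↑N.primeFactors : Set ℕ)), ℓ ∉ fullSet W p →
      residue 𝒪 (χ (heckeAlgebra.T hℓ hℓN hℓS)) = ((W.apOfModel ℓ : ℤ) : ResidueField 𝒪) := by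
    intro ℓ hℓ hℓN hℓS hℓ₀
    obtain ⟨a, ha, hca⟩ := hcong ℓ hℓ (hgood hℓ hℓ₀).1 hℓN (hgood hℓ hℓ₀).2
    exact hχ ℓ hℓ hℓN hℓS a _ ha hca
  obtain ⟨ρ, hρres, hρdet, hρcp, hρur, hρuni, hρflat, hρord⟩ :=
    exists_baseRep hS37 h32 h33 h34 hp2 hp𝒪 (minSet W p) (Finset.mem_insert_self _ _) hsub χ ρbar
      (curveResidual_isAbsolutelyIrreducible W hΔ p (ResidueField 𝒪) hp2 hirr) (fullSet W p)
      fun ℓ hℓ hℓN hℓS hℓ₀ A hA σ hσ => by
        rw [charpoly_curveResidual_frobenius W hΔ p (ResidueField 𝒪) hℓ (hgood hℓ hℓ₀).2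
          (hgood hℓ hℓ₀).1 hA hσ, hres ℓ hℓ hℓN hℓS hℓ₀]
  have hbase : IsBasePoint W hΔ p N χ ρ := by
    refine ⟨hp𝒪, hρres, hρdet, fun ℓ hℓ hℓN hℓS hℓp => hρcp ℓ hℓ hℓN hℓS fun h => ?_⟩
    rcases Finset.mem_insert.mp h with h | h
    · exact hℓp h
    · exact hℓN ((prime_dvd_baseLevel W p hp k hℓ).mpr (Or.inl h))
  have hcurve := TateE.curveRep_cond hΔ φ hφ hp2 hW k
    (fun hk => ⟨by subst hk; exact hadm.1, inferInstance⟩)
    (fun hk => by
      cases k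
      · exact absurd rfl hk
      · exact hadm.1
      · exact hadm.1)
    (fullSet W p) (minSet W p) (Finset.mem_insert_self _ _)
    fun q hq hd => mem_fullSet_of_dvd_Δ W p hΔ hq hd
  have hlift : IsCurveLift W p ρbar (TateE.curveRep W p hΔ φ hφ) :=
    TateE.curveRep_isCurveLift hΔ hp2 φ hφ _ _ _
  have hpN : k ≠ .strict → ¬ p ∣ N := fun hk h => by
    rcases (prime_dvd_baseLevel W p hp k hp).mp h with h | ⟨-, h⟩
    · exact ((mem_ramPrimes W p hΔ).mp h).2.2.1 rfl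
    · exact hk h
  have hpS : k ≠ .strict → p ∉ (↑N.primeFactors : Set ℕ) := fun hk h =>
    hpN hk (Nat.dvd_of_mem_primeFactors h)
  obtain ⟨α, hα⟩ : ∃ α : 𝒪, ∀ hk : k = .ord, IsUnit α ∧
      α ^ 2 + (p : 𝒪) = χ (heckeAlgebra.T hp (hpN (by rw [hk]; decide))
        (hpS (by rw [hk]; decide))) * α ∧ HasUnitRootFrob ρ p α := by
    by_cases hk : k = .ord
    · subst hk
      obtain ⟨α, hα⟩ := hur W p ⟨hp35, hΔ, hW, hirr, hadm⟩ hΔ 𝒪 χ ρ hbase
        (hρflat (hpN (by decide))) (hpN (by decide)) (hpS (by decide))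
      exact ⟨α, fun _ => hα⟩
    · exact ⟨0, fun h => absurd h hk⟩
  let a : ℕ → 𝒪 := fun ℓ =>
    if h : ℓ.Prime ∧ ¬ ℓ ∣ N ∧ ℓ ∉ (↑N.primeFactors : Set ℕ) then
      χ (heckeAlgebra.T h.1 h.2.1 h.2.2) else 0
  have ha : ∀ (ℓ : ℕ) (hℓ : ℓ.Prime) (hℓN : ¬ ℓ ∣ N) (hℓS : ℓ ∉ (↑N.primeFactors : Set ℕ)),
      a ℓ = χ (heckeAlgebra.T hℓ hℓN hℓS) := fun ℓ hℓ hℓN hℓS => dif_pos ⟨hℓ, hℓN, hℓS⟩
  have hout : ∀ {ℓ : ℕ}, ℓ.Prime → ℓ ∉ minSet W p →
      ¬ ℓ ∣ N ∧ ℓ ∉ (↑N.primeFactors : Set ℕ) := fun hℓ h =>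
    ⟨fun hd => h (hNmem hℓ hd), fun hd => h (hsub hd)⟩
  refine ⟨{
    𝒪 := 𝒪
    p_mem := hp𝒪
    ρbar := ρbar
    absIrr := curveResidual_isAbsolutelyIrreducible W hΔ p (ResidueField 𝒪) hp2 hirr
    detCyc := curveResidual_detIsCyclotomic W hΔ p (ResidueField 𝒪)
    split := curveResidual_split W hΔ p (ResidueField 𝒪) hζ
    tw := fun K _ _ G hG V hV => curveResidual_tw W hΔ p (ResidueField 𝒪) hp35 hW hirr K G hG V hV
    ramified_iff := fun q hq hqp => ?_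
    curve := TateE.curveRep W p hΔ φ hφ
    isCurveLift := hlift
    curve_cond := hcurve
    a := a
    α := α
    point := ⟨χ, fun ℓ hℓ hℓN hℓS => (ha ℓ hℓ hℓN hℓS).symm⟩
    a_congr := fun ℓ hℓ hℓ₀ => ?_
    base := ρ
    base_residual := hρres
    base_cond := ?_
    base_charpoly := fun ℓ hℓ hℓ₀ A hA σ hσ => ?_
    alpha_spec := fun hk => ?_ }⟩
  · rw [curveResidual_isUnramifiedAt_iff W hΔ p, minSet, Finset.mem_insert,
      mem_ramPrimes W p hΔ]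
    refine ⟨fun h => (h.resolve_left hqp).2.2.2, fun h => Or.inr ⟨hq, ?_, hqp, h⟩⟩
    by_contra hd
    exact h (modUnramified_of_good W hp hq hqp hd)
  · obtain ⟨h1, h2⟩ := hout hℓ fun h => hℓ₀ (hmf h)
    rw [ha ℓ hℓ h1 h2, hres ℓ hℓ h1 h2 hℓ₀]
  · refine ⟨?_, fun q hq hqq hqp => hρuni q hqq hqp ?_ (not_sq_dvd_baseLevel W p hΔ hp k hqq)⟩
    · cases k with
      | flat => exact ⟨hρdet, hρflat (hpN (by decide)), hρur⟩
      | ord => exact ⟨hρdet, hρflat (hpN (by decide)), hρur⟩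
      | strict =>
        have hbar : (GaloisRepAdic.ofResidualGaloisRep ρbar).IsStrictOrdinaryAt p :=
          (ofResidual_of_lift (closed_cond hp2 .strict (fullSet W p) (minSet W p))
            hlift.residual hcurve).1.2.1
        have hord := hρord ((prime_dvd_baseLevel W p hp .strict hp).mpr (Or.inr ⟨rfl, rfl⟩))
          (not_sq_dvd_baseLevel W p hΔ hp .strict hp) hbar
        exact ⟨hρdet, hstr W p ⟨hp35, hΔ, hW, hirr, hadm⟩ hΔ 𝒪 χ ρ hbase hord, hρur⟩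
    · exact (prime_dvd_baseLevel W p hp k hqq).mpr
        (Or.inl ((Finset.mem_insert.mp hq).resolve_left hqp))
  · obtain ⟨h1, h2⟩ := hout hℓ hℓ₀
    rw [ha ℓ hℓ h1 h2, hρcp ℓ hℓ h1 h2 hℓ₀ A hA σ hσ]
  · obtain ⟨h1, h2, h3⟩ := hα hk
    refine ⟨h1, ?_, h3⟩
    rw [ha p hp (hpN (by rw [hk]; decide)) (hpS (by rw [hk]; decide))]
    exact h2

end Fermat.Agent.R59
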